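/-
ML / LIFT / Soft / MidLoc : the CONCRETE local fields of `MidOut` (`ML/Lift/Soft/Spec.lean`), as stand-alone lemmas.

`H : Rho.IsRhoK L m X rE πE ρ Φ`, `S : SoftAt ρ (PhiJ ..) π0 v ε φ b` the uniform local record on `V = X × Λ²` (`ML/Raise/Soft.lean`).

* `mid_rel`      : `t_q² = (q+1)²` on `ker Π_q` (free levels, `dnE`);   `mid_rel_Uup`.
* `mid_out_new`  : `LocSt`, `LocUnip` at the prime raised NOW, on `G' ⊆ β' (X ∩ U')`, `c'_q ∣ β'`.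
* `mid_out_old`  : `LocSt`, `LocUnip` at a prime raised EARLIER, `b_v ∣ β'`.
* `mid_frob`     : `c_q x = 0 ⟹ φ x + q φ⁻¹ x = ε (q+1) x`.
* `mid_in_st`, `mid_in_ur` : a local condition on the points of a stage module `Y ≤ X` ⟹ the same on `Y × 0 ≤ V`.
* `midSub`, `annG_eq` : `X ∩ G₁` as an `R`-submodule, `annG X R G₁ = Ann`.
* `locPkg_old`, `locPkg_new` : the packages `Lift.LocPkg` of `ML/Lift/Inst/MidAbs.lean`.
-/
import Fermat.Agent.ML.Lift.Soft.Spec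
import Fermat.Agent.ML.Raise.Soft
import Fermat.Agent.ML.Raise.StTop
import Fermat.Agent.ML.Raise.RelLast
import Fermat.Agent.ML.Lift.Inst.GenSub
import Fermat.Agent.ML.Lift.Inst.MidAbs

set_option autoImplicit false
set_option linter.unusedSectionVars false

noncomputable section

open ModularCurve

namespace Fermat.Agent.ML.Raise

open Matrix Fermat.Agent.RIB Fermat.Agent.ML Fermat.Agent.S56 ExtCitation Fermat.Agent.ML.Rho
  Fermat.Agent.ML.Lift Fermat.Agent.ML.ESide Fermat.Agent.ML.TWFree Fermat.Agent.ML.StepGen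
open CFT (decomp)

local notation "M₂" => Matrix (Fin 2) (Fin 2)
local notation "Qbar" => AlgebraicClosure ℚ

/-! ### (1) the relation on `ker Π_q` -/

section Rel

variable {N Nq q : ℕ} [NeZero N] [NeZero Nq] [NeZero q]

theorem mid_rel {p : ℕ} (hq : q.Prime) (hp : p.Prime) (hqp : q ≠ p) (hqN : ¬ q ∣ N)
    (h : Nq = N * q) {A : ValuationSubring Qbar} (hA : A.LiesOverPrime q) {σ : GQ}
    (hσ : A.IsFrobeniusAt σ q) {x : JZero Nq} (hx : ∃ n : ℕ, p ^ n • x = 0)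
    (hd : ∀ c : Fin 2, dnE h c x = 0) : trOp q σ (trOp q σ x) = (q + 1) ^ 2 • x := by
  subst h
  have h0 := hd 0
  have h1 := hd 1
  rw [dnE_zero, castJ_rfl] at h0
  rw [dnE_one, castJ_rfl] at h1
  exact ML.rel_last N q p hq hp hqp hqN A hA σ hσ x hx h0 h1

theorem mid_rel_Uup {p : ℕ} {S : Set ℕ} {θ : ℕ → ℤ} {t : ℕ} {qv : Fin t → Nat.Primes}
    (hq : q.Prime) (hp : p.Prime) (hqp : q ≠ p) (hqN : ¬ q ∣ N)
    (h : Nq = N * q) (a : ℕ) {A : ValuationSubring Qbar} (hA : A.LiesOverPrime q) {σ : GQ}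
    (hσ : A.IsFrobeniusAt σ q) :
    ∀ x ∈ (Uup p S θ qv h a : Set (JZero Nq)), trOp q σ (trOp q σ x) = (q + 1) ^ 2 • x :=
  fun _ hx => mid_rel hq hp hqp hqN h hA hσ ⟨a, hx.2.1⟩ hx.2.2.1

end Rel

/-! ### `V = X × Λ²` -/

section VJ

variable {L m : ℕ} [NeZero L] [NeZero m] {R : Type} [CommRing R] [Algebra (ZMod m) R]
  {X : AddSubgroup (JZero L)} [Module R ↥X] {rE : GQ →* M₂ (ZMod m)}
  {πE : R →ₐ[ZMod m] ZMod m} {ρ : GQ →* M₂ R} {Φ : M₂ R →ₐ[R] Module.End R ↥X}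
  (H : Fermat.Agent.ML.Rho.IsRhoK L m X rE πE ρ Φ)

/-! #### (5) the input side -/

include H in
theorem mid_in_st (Y : Submodule R ↥X) {G₁ : AddSubgroup (JZero L)}
    (hG₁ : ∀ s : GQ, ∀ x ∈ G₁, s • x ∈ G₁) (hYS : ∀ y ∈ Y, ((y : ↥X) : JZero L) ∈ G₁) {q : ℕ}
    {ε : ℤ} (h : LocSt q ε (G₁ : Set (JZero L))) :
    LocSt q ε (subVJ rE πE ρ Φ Y : Set (VJ X rE πE ρ Φ)) :=
  locSt_mono (locSt_in H hG₁ h) fun _ hv => ⟨hv.2, hYS _ hv.1⟩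

include H in
theorem mid_in_ur (Y : Submodule R ↥X) {G₁ : Set (JZero L)}
    (hYS : ∀ y ∈ Y, ((y : ↥X) : JZero L) ∈ G₁) {q : ℕ} (h : LocUr q G₁) :
    LocUr q (subVJ rE πE ρ Φ Y : Set (VJ X rE πE ρ Φ)) :=
  locUr_mono (locUr_in H h) fun _ hv => ⟨hv.2, hYS _ hv.1⟩

/-- `X ∩ G₁` as an `R`-submodule of `X`. -/
def midSub (G₁ : AddSubgroup (JZero L)) (hG₁ : ∀ s : GQ, ∀ x ∈ G₁, s • x ∈ G₁) :
    Submodule R ↥X where
  carrier := {x | (x : JZero L) ∈ G₁}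
  zero_mem' := G₁.zero_mem
  add_mem' := fun hx hy => G₁.add_mem hx hy
  smul_mem' := by
    intro s x hx
    obtain ⟨f, hf, h⟩ := (Lift.IsRhoK.traceRing H).exists_common (G₁ ⊓ X)
      (fun g v hv => ⟨hG₁ g v hv.1, Lift.IsRhoK.stable H g v hv.2⟩)
      (fun _ : Unit => AddMonoidHom.id (JZero L)) (fun _ _ _ => rfl) (fun _ _ hv => hv.2) s
    have h1 := h () (x : JZero L) ⟨hx, x.2⟩
    show ((s • x : ↥X) : JZero L) ∈ G₁
    have h2 : ((s • x : ↥X) : JZero L) = f (x : JZero L) := h1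
    rw [h2]
    exact (hf _ ⟨hx, x.2⟩).1

theorem mem_midSub {G₁ : AddSubgroup (JZero L)} {hG₁ : ∀ s : GQ, ∀ x ∈ G₁, s • x ∈ G₁} {x : ↥X} :
    x ∈ midSub H G₁ hG₁ ↔ (x : JZero L) ∈ G₁ := Iff.rfl

theorem midSub_gal {G₁ : AddSubgroup (JZero L)} {hG₁ : ∀ s : GQ, ∀ x ∈ G₁, s • x ∈ G₁} (g : GQ) :
    ∀ y ∈ midSub H G₁ hG₁, ∀ y' : ↥X, (y' : JZero L) = g • (y : JZero L) →
      y' ∈ midSub H G₁ hG₁ := by
  intro y hy y' e
  show (y' : JZero L) ∈ G₁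
  rw [e]
  exact hG₁ g _ hy

theorem annG_eq (G₁ : AddSubgroup (JZero L)) (hG₁ : ∀ s : GQ, ∀ x ∈ G₁, s • x ∈ G₁) :
    annG X R G₁ = (midSub H G₁ hG₁).annihilator := by
  ext s
  rw [mem_annG, Submodule.mem_annihilator]
  rfl

theorem midSub_ne_bot {G₁ : AddSubgroup (JZero L)} {hG₁ : ∀ s : GQ, ∀ x ∈ G₁, s • x ∈ G₁}
    (hle : G₁ ≤ X) (h0 : G₁ ≠ ⊥) : midSub H G₁ hG₁ ≠ ⊥ := by
  intro h
  refine h0 ((AddSubgroup.eq_bot_iff_forall _).2 fun x hx => ?_)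
  have h1 : (⟨x, hle hx⟩ : ↥X) ∈ midSub H G₁ hG₁ := hx
  rw [h, Submodule.mem_bot] at h1
  exact congrArg Subtype.val h1

/-! #### the record -/

variable {p : ℕ} {π0 : R →+* ZMod p} {v : Nat.Primes} {ε : ℤ} {φ : GQ} {b : R}
  (S : SoftAt ρ (PhiJ X rE πE ρ Φ) π0 v ε φ b)

include H S

theorem mid_unip : LocUnip (v : ℕ) (X : Set (JZero L)) :=
  locUnip_mono (locUnip_map (ofVJ X rE πE ρ Φ) (ofVJ_gal H) S.unip)
    fun x hx => ⟨((⟨x, hx⟩ : XJ X ρ Φ), (0 : EMJ rE πE)), Set.mem_univ _, rfl⟩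

/-- **(3)** a prime raised at an EARLIER stage. -/
theorem mid_out_old {β : R} (hβ : b ∣ β) {U : Set (JZero L)}
    (hU : ∀ s : GQ, ∀ x ∈ U, s • x ∈ U) {G' : Set (JZero L)}
    (hG' : ∀ x ∈ G', ∃ x₁ : ↥X, (x₁ : JZero L) ∈ U ∧ ((β • x₁ : ↥X) : JZero L) = x) :
    LocSt (v : ℕ) ε G' ∧ LocUnip (v : ℕ) G' :=
  ⟨locSt_mono (locSt_map (ofVJ X rE πE ρ Φ) (ofVJ_gal H)
      (S.out_b _ (liftSet_gal H hU) β hβ)) (subset_image_liftSet hG'),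
    locUnip_mono (mid_unip H S) fun x hx => by
      obtain ⟨x₁, _, rfl⟩ := hG' x hx
      exact (β • x₁).2⟩

/-- **(2)** the prime raised NOW. -/
theorem mid_out_new {β : R} (hβ : (ρ φ).trace + (ε : R) * (((v : ℕ) : R) + 1) ∣ β)
    {U : Set (JZero L)} (hU : ∀ s : GQ, ∀ x ∈ U, s • x ∈ U)
    (hrel : ∀ x ∈ U, trOp (v : ℕ) φ (trOp (v : ℕ) φ x) = ((v : ℕ) + 1) ^ 2 • x)
    {G' : Set (JZero L)}
    (hG' : ∀ x ∈ G', ∃ x₁ : ↥X, (x₁ : JZero L) ∈ U ∧ ((β • x₁ : ↥X) : JZero L) = x) :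
    LocSt (v : ℕ) ε G' ∧ LocUnip (v : ℕ) G' :=
  ⟨locSt_mono (locSt_map (ofVJ X rE πE ρ Φ) (ofVJ_gal H)
      (S.out_c' _ (liftSet_gal H hU) β hβ (trOp_liftSet H hrel))) (subset_image_liftSet hG'),
    locUnip_mono (mid_unip H S) fun x hx => by
      obtain ⟨x₁, _, rfl⟩ := hG' x hx
      exact (β • x₁).2⟩

omit S in
/-- **(4)** -/
theorem mid_frob (hdet : (ρ φ).det = ((v : ℕ) : R)) (x : ↥X)
    (hx : ((ρ φ).trace - (ε : R) * (((v : ℕ) : R) + 1)) • x = 0) :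
    φ • (x : JZero L) + (v : ℕ) • φ⁻¹ • (x : JZero L) =
      (ε * (((v : ℕ) : ℤ) + 1)) • (x : JZero L) := by
  set w : VJ X rE πE ρ Φ := ((x : XJ X ρ Φ), (0 : EMJ rE πE)) with hw
  have h1 : (ρ φ).trace • w = φ • w + (v : ℕ) • φ⁻¹ • w := by
    rw [H.rhoAct.trace_smul, hdet, Nat.cast_smul_eq_nsmul]
  have h2 := congrArg (ofVJ X rE πE ρ Φ) h1
  rw [map_add, map_nsmul, ofVJ_gal H, ofVJ_gal H] at h2
  have h3 : ofVJ X rE πE ρ Φ ((ρ φ).trace • w) = (((ρ φ).trace • x : ↥X) : JZero L) := rfl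
  have h4 : ofVJ X rE πE ρ Φ w = (x : JZero L) := rfl
  rw [h3, h4] at h2
  rw [← h2]
  have h5 : (ρ φ).trace • x = ((ε * (((v : ℕ) : ℤ) + 1) : ℤ) : R) • x := by
    rw [sub_smul, sub_eq_zero] at hx
    rw [hx]
    push_cast
    rfl
  rw [h5, Int.cast_smul_eq_zsmul]
  rfl

/-! #### (6) the packages of `mid_abs` -/

/-- the package of a prime raised at an EARLIER stage : variable `b`, value `p`, multiplier `b`. -/
theorem locPkg_old [Fact p.Prime] (Y : Submodule R ↥X)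
    (hYG : ∀ (g : GQ), ∀ y ∈ Y, ∀ y' : ↥X, (y' : JZero L) = g • (y : JZero L) → y' ∈ Y)
    {G₁ : AddSubgroup (JZero L)} (hG₁ : ∀ s : GQ, ∀ x ∈ G₁, s • x ∈ G₁)
    (hYS : ∀ y ∈ Y, ((y : ↥X) : JZero L) ∈ G₁) (hst : LocSt (v : ℕ) ε (G₁ : Set (JZero L))) :
    LocPkg p π0 ρ Y v b 1 b (p : ℤ) 1 where
  pi0_u := S.pi0_b
  strict := fun I hb => by
    have h := S.strict_raised (subVJ rE πE ρ Φ Y) (smul_mem_subVJ H hYG)
      (mid_in_st H Y hG₁ hYS hst) I hb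
    rwa [annihilator_subVJ] at h
  val := fun x _ hx => by
    rw [mul_one, sub_smul, sub_eq_zero] at hx
    rw [hx, Nat.cast_smul_eq_nsmul, natCast_zsmul]
  hN := by
    intro h
    have hp : p.Prime := Fact.out
    have h1 : (p : ℤ) ^ 2 ∣ (p : ℤ) ^ 1 := by simpa using h
    have h2 : p ^ 2 ∣ p ^ 1 := by exact_mod_cast h1
    have := (Nat.pow_dvd_pow_iff_le_right hp.one_lt).1 h2
    omega

/-- the package of the prime raised NOW : variable `c`, value `0`, multiplier `c'`. -/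
theorem locPkg_new [Fact p.Prime] (Y : Submodule R ↥X)
    (hYG : ∀ (g : GQ), ∀ y ∈ Y, ∀ y' : ↥X, (y' : JZero L) = g • (y : JZero L) → y' ∈ Y)
    {G₁ : Set (JZero L)} (hYS : ∀ y ∈ Y, ((y : ↥X) : JZero L) ∈ G₁) (hur : LocUr (v : ℕ) G₁)
    {f : ℕ} (hf : ¬ (p : ℤ) ^ (f + 1) ∣ 2 * ε * (((v : ℕ) : ℤ) + 1)) :
    LocPkg p π0 ρ Y v ((ρ φ).trace - (ε : R) * (((v : ℕ) : R) + 1)) 0
      ((ρ φ).trace + (ε : R) * (((v : ℕ) : R) + 1)) (2 * ε * (((v : ℕ) : ℤ) + 1)) f where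
  pi0_u := S.pi0_c
  strict := fun I hc => by
    have h := S.strict_unraised (subVJ rE πE ρ Φ Y) (smul_mem_subVJ H hYG)
      (mid_in_ur H Y hYS hur) I hc
    rwa [annihilator_subVJ] at h
  val := fun x _ hx => by
    rw [mul_zero, sub_zero] at hx
    have e : (ρ φ).trace + (ε : R) * (((v : ℕ) : R) + 1) =
        ((ρ φ).trace - (ε : R) * (((v : ℕ) : R) + 1)) +
          ((2 * ε * (((v : ℕ) : ℤ) + 1) : ℤ) : R) := by
      push_cast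
      ring
    rw [e, add_smul, hx, zero_add, Int.cast_smul_eq_zsmul]
  hN := hf

end VJ

end Fermat.Agent.ML.Raise
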