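import Fermat.Agent.ML.Lift.Soft.Defs

/-!
# ML / LIFT / Soft / Spec : the contracts of the raising step at an odd prime `q ≠ p`

`StepSoftStmt ⟸ StepNumStmt + SoftMidStmt + StepAtpStmt`   (`ML/Lift/Soft/Asm.lean`).

Notation : `S = ↑(cutS T qv)`, `θ = W.apOfModel`, `N = lvl Lc (extP qv) t`, `N' = lvl Lc' (extP qv) t`,
`h = lvl_mul_q hL qv : N' = N * q`, `V = thTors p S θ N' (K+1)`.

* `annG V G₁` : the ideal of the `s : R` which kill `V ∩ G₁`.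
* `StepNumStmt` (NUM)  : the generators `τ i` of tame inertia at the Taylor-Wiles primes and the three numerics.   Soft AND hard.
* `SoftMidStmt` (MID)  : the auxiliary point, the multiplier `β'`, and the local fields of the new cell.
* `StepAtpStmt` (ATP)  : the field `atp` of the new cell.   Soft AND hard.
-/

set_option autoImplicit false
set_option linter.unusedSectionVars false

noncomputable section

open AlgebraicCurve ModularCurve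

namespace Fermat.Agent.ML.Lift

open Fermat.Agent.RIB Fermat.Agent.RIB.Rho Fermat.Agent.GAL Fermat.Agent.GAL.PC Fermat.Agent.ML
  Fermat.Agent.ML.TWFree Fermat.Agent.ML.ESide

local notation "Qbar" => AlgebraicClosure ℚ
local notation "GQ" => (AlgebraicClosure ℚ ≃ₐ[ℚ] AlgebraicClosure ℚ)
local notation "M₂" => Matrix (Fin 2) (Fin 2)

/-- the ideal of the `s : R` which kill `V ∩ G₁`. -/
def annG {J : Type*} [AddCommGroup J] (V : AddSubgroup J) (R : Type*) [CommRing R] [Module R ↥V]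
    (G₁ : AddSubgroup J) : Ideal R where
  carrier := {s | ∀ x : ↥V, (x : J) ∈ G₁ → s • x = 0}
  zero_mem' := fun x _ => zero_smul R x
  add_mem' := fun {s s'} hs hs' x hx => by rw [add_smul, hs x hx, hs' x hx, add_zero]
  smul_mem' := fun r s hs x hx => by rw [smul_eq_mul, mul_smul, hs x hx, smul_zero]

theorem mem_annG {J : Type*} [AddCommGroup J] {V : AddSubgroup J} {R : Type*} [CommRing R]
    [Module R ↥V] {G₁ : AddSubgroup J} {s : R} :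
    s ∈ annG V R G₁ ↔ ∀ x : ↥V, (x : J) ∈ G₁ → s • x = 0 := Iff.rfl

/-- **(NUM)** -/
def StepNumStmt : Prop :=
  ∀ (W : WeierstrassCurve ℤ) (p : ℕ) [Fact p.Prime] (T : Finset ℕ)
    (b : Module.Basis (Fin 2) (ZMod p) (TorsW W p)) (L₀ : ℕ) [NeZero L₀] (eps : ℕ → ℤ)
    (eP : GQ → ℤ) (X : LCtx W p T b L₀ eps eP) (t : ℕ) (P : Finset ℕ) (q : ℕ),
    P ⊆ Pfin W (rbarB b) L₀ → q ∈ Pfin W (rbarB b) L₀ → q ∉ P → q ≠ 2 → q ≠ p → p ∉ P →
    ∃ d : ℕ, ∀ (a m n K : ℕ) (qv : Fin t → Nat.Primes),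
      Frm p X.C.hp2 T W.apOfModel (rbarB b) t 0 0 a m n K qv → 1 ≤ a →
      ∀ (Lc Lc' : ℕ) [NeZero Lc] [NeZero Lc'] [NeZero q], Lc = cellLevel L₀ P →
      ∀ hL : Lc' = Lc * q,
      ∃ (A : Fin t → ValuationSubring Qbar) (τ : Fin t → GQ) (D : ℕ),
        (∀ i, (A i).LiesOverPrime ((qv i : Nat.Primes) : ℕ)) ∧
        (∀ i, τ i ∈ (A i).inertiaSubgroupIn ℚ) ∧
        (∀ i, CycOn p (↑(cutS T qv) : Set ℕ) W.apOfModel ((A i).inertiaSubgroupIn ℚ) (τ i) (p ^ a)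
          (lvl Lc' (extP qv) t)) ∧
        Nat.card ↥(boxG p 1 τ
          (Ulow p (↑(cutS T qv) : Set ℕ) W.apOfModel qv (lvl Lc (extP qv) t) a)) ≤ p ^ d ∧
        Nat.card ↥(boxG p 1 τ
          (Uup p (↑(cutS T qv) : Set ℕ) W.apOfModel qv (lvl_mul_q hL qv) a)) ≤ p ^ D ∧
        p ^ (D * a ^ (t + 1)) ≤ Nat.card ↥(boxG p a τ
          (Uup p (↑(cutS T qv) : Set ℕ) W.apOfModel qv (lvl_mul_q hL qv) a))

/-- **(ATP)** -/
def StepAtpStmt : Prop :=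
  ∀ (W : WeierstrassCurve ℤ) (p : ℕ) [Fact p.Prime] (T : Finset ℕ)
    (b : Module.Basis (Fin 2) (ZMod p) (TorsW W p)) (L₀ : ℕ) [NeZero L₀] (eps : ℕ → ℤ)
    (eP : GQ → ℤ) (X : LCtx W p T b L₀ eps eP) (t : ℕ) (P : Finset ℕ),
    P ⊆ Pfin W (rbarB b) L₀ → p ∉ P →
    ∀ (a m n K : ℕ) (qv : Fin t → Nat.Primes),
      Frm p X.C.hp2 T W.apOfModel (rbarB b) t 0 0 a m n K qv →
      ∀ (Lc : ℕ) [NeZero Lc], Lc = cellLevel L₀ P → p ∣ Lc →
        LocPSt p eP a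
          (thTors p (↑(cutS T qv) : Set ℕ) W.apOfModel (lvl Lc (extP qv) t) a :
            Set (JZero (lvl Lc (extP qv) t)))

/-- the conclusion of (MID) : the auxiliary point `(u, δ)`, the multiplier `β'`, its value `Nn`. -/
structure MidOut (p : ℕ) [Fact p.Prime] (T : Finset ℕ) (rbar0 : GQ →* M₂ (ZMod p)) (eps : ℕ → ℤ)
    (P : Finset ℕ) (q f t : ℕ) {N' : ℕ} [NeZero N'] (V G₁ U' : AddSubgroup (JZero N'))
    {R : Type} [CommRing R] [Module R ↥V] (π0 : R →+* ZMod p)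
    (u δ : Fin t → R) (β' : R) (Nn : ℤ) : Prop where
  hu : ∀ k, π0 (u k) = 0
  /-- (GEN) -/
  gen : RingHom.ker π0 ≤ annG V R G₁ ⊔ Ideal.span (Set.range u) ⊔ Ideal.span {(p : R)}
  hN : ¬ (p : ℤ) ^ (f + 1) ∣ Nn
  /-- the value of `β'` at the auxiliary point -/
  val : ∀ x : ↥V, (x : JZero N') ∈ G₁ → (∀ k, (u k - (p : R) * δ k) • x = 0) → β' • x = Nn • x
  /-- `c_q` is one of the `u k` -/
  frob : ∀ x : ↥V, (x : JZero N') ∈ G₁ → (∀ k, (u k - (p : R) * δ k) • x = 0) →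
    ∃ (A : ValuationSubring Qbar) (σ : GQ), A.LiesOverPrime q ∧ A.IsFrobeniusAt σ q ∧
      σ • (x : JZero N') + q • σ⁻¹ • (x : JZero N') = (eps q * ((q : ℤ) + 1)) • (x : JZero N')
  /-- the local fields of the new cell -/
  out : ∀ G' : AddSubgroup (JZero N'), (∀ g : GQ, ∀ x ∈ G', g • x ∈ G') →
    (∀ x ∈ G', ∃ x₁ : ↥V, (x₁ : JZero N') ∈ U' ∧ ((β' • x₁ : ↥V) : JZero N') = x) →
    (∀ q' ∈ insert q P, q' ≠ p →
      LocSt q' (eps q') (G' : Set (JZero N')) ∧ LocUnip q' (G' : Set (JZero N'))) ∧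
    (∀ q' : ℕ, q'.Prime → q' ∈ T → q' ∉ insert q P → q' ≠ p → ¬ Ram rbar0 q' →
      LocUr q' (G' : Set (JZero N'))) ∧
    (∀ q' : ℕ, q'.Prime → q' ≠ p → Ram rbar0 q' → LocUnip q' (G' : Set (JZero N')))

/-- **(MID)**, soft primes. -/
def SoftMidStmt : Prop :=
  ∀ (W : WeierstrassCurve ℤ) (p : ℕ) [Fact p.Prime] (T : Finset ℕ)
    (b : Module.Basis (Fin 2) (ZMod p) (TorsW W p)) (L₀ : ℕ) [NeZero L₀] (eps : ℕ → ℤ)
    (eP : GQ → ℤ) (X : LCtx W p T b L₀ eps eP) (t : ℕ) (P : Finset ℕ) (q : ℕ),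
    P ⊆ Pfin W (rbarB b) L₀ → q ∈ Pfin W (rbarB b) L₀ → q ∉ P → q ≠ 2 → q ≠ p →
    FrobNonScalar (rbarB b) q → p ∉ P → (2 ∈ Pfin W (rbarB b) L₀ → 2 ∈ P) →
    (∀ q' ∈ P, q' ≠ 2 → FrobNonScalar (rbarB b) q') →
    ∃ f : ℕ, ∀ (a m n K : ℕ) (qv : Fin t → Nat.Primes),
      Frm p X.C.hp2 T W.apOfModel (rbarB b) t 0 0 a m n K qv → 1 ≤ a →
      ∀ (Lc Lc' : ℕ) [NeZero Lc] [NeZero Lc'] [NeZero q], Lc = cellLevel L₀ P →
      ∀ hL : Lc' = Lc * q,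
      ∀ G : AddSubgroup (JZero (lvl Lc (extP qv) t)),
        IsCell p T W.apOfModel (rbarB b) eps eP Lc qv a P G → G ≠ ⊥ →
      ∀ B : Module.Basis (Fin 2) (ZMod (p ^ (K + 1))) (TorsW W (p ^ (K + 1))),
        TopCtx W p b K B (lvl Lc' (extP qv) t)
          (thTors p (↑(cutS T qv) : Set ℕ) W.apOfModel (lvl Lc' (extP qv) t) (K + 1)) →
        Fermat.Agent.ML.Rho.EK (p ^ (K + 1)) (cutS T qv) W.apOfModel (rEB B) →
      ∀ (R : Type) [CommRing R] [IsLocalRing R] [Finite R] [Algebra (ZMod (p ^ (K + 1))) R]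
        [Module R ↥(thTors p (↑(cutS T qv) : Set ℕ) W.apOfModel (lvl Lc' (extP qv) t) (K + 1))]
        (πE : R →ₐ[ZMod (p ^ (K + 1))] ZMod (p ^ (K + 1))) (ρ : GQ →* M₂ R)
        (Φ : M₂ R →ₐ[R] Module.End R
          ↥(thTors p (↑(cutS T qv) : Set ℕ) W.apOfModel (lvl Lc' (extP qv) t) (K + 1))),
        Fermat.Agent.ML.Rho.IsRhoK (lvl Lc' (extP qv) t) (p ^ (K + 1))
          (thTors p (↑(cutS T qv) : Set ℕ) W.apOfModel (lvl Lc' (extP qv) t) (K + 1))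
          (rEB B) πE ρ Φ →
        ∃ (u δ : Fin t → R) (β' : R) (Nn : ℤ),
          MidOut p T (rbarB b) eps P q f t
            (thTors p (↑(cutS T qv) : Set ℕ) W.apOfModel (lvl Lc' (extP qv) t) (K + 1))
            (G.map (upE (lvl_mul_q hL qv) 0))
            (Uup p (↑(cutS T qv) : Set ℕ) W.apOfModel qv (lvl_mul_q hL qv) a)
            (pi0 πE) u δ β' Nn

end Fermat.Agent.ML.Lift
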