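import Fermat.Agent.ML.Lift.Inst.Geo
import Fermat.Agent.ML.Lift.Inst.New
import Fermat.Agent.ML.Lift.OfRhoK
import Fermat.Agent.ML.Main.LiftRho
import Fermat.Agent.ML.Main.StepSplit
import Fermat.Agent.ML.TWFree.Inst.InBox

/-!
# ML / LIFT / Soft / Defs : the fixed objects of a raising step at an odd prime `q ≠ p`

`h : Nq = N * q`.

* `thTors p S θ N k`   : `thetaPart N [p^k]`            (`V := thTors .. Nq (K+1)` carries the ring of the step);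
* `Ulow p S θ qv N a`  : the part of `thetaPart N [p^a]` which is new at all the Taylor-Wiles primes;
* `Uup p S θ qv h a`   : the part of `thetaPart Nq [p^a]` which is new at all the Taylor-Wiles primes and killed by `Π_q`;
* the geometric block of `raise_step_abs` for `uA := upE h 0`, `uE := embE h ε`.
-/

set_option autoImplicit false
set_option linter.unusedSectionVars false

noncomputable section

open AlgebraicCurve ModularCurve

namespace Fermat.Agent.ML.Lift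

open Fermat.Agent.RIB Fermat.Agent.GAL Fermat.Agent.GAL.PC Fermat.Agent.ML Fermat.Agent.ML.TWFree

local notation "Qbar" => AlgebraicClosure ℚ
local notation "GQ" => (AlgebraicClosure ℚ ≃ₐ[ℚ] AlgebraicClosure ℚ)

section Defs

variable (p : ℕ) (S : Set ℕ) (θ : ℕ → ℤ) {t : ℕ} (qv : Fin t → Nat.Primes)

/-- `thetaPart N [p^k]`. -/
def thTors (N : ℕ) [NeZero N] (k : ℕ) : AddSubgroup (JZero N) where
  carrier := {x | x ∈ thetaPart N p S θ ∧ p ^ k • x = 0}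
  zero_mem' := ⟨(thetaPart N p S θ).zero_mem, smul_zero _⟩
  add_mem' := fun hx hy => ⟨(thetaPart N p S θ).add_mem hx.1 hy.1, by
    rw [nsmul_add, hx.2, hy.2, add_zero]⟩
  neg_mem' := fun hx => ⟨(thetaPart N p S θ).neg_mem hx.1, by rw [neg_nsmul, hx.2, neg_zero]⟩

/-- the `Q`-new part of `thetaPart N [p^a]`. -/
def Ulow (N : ℕ) [NeZero N] (a : ℕ) : AddSubgroup (JZero N) where
  carrier := {x | x ∈ thetaPart N p S θ ∧ p ^ a • x = 0 ∧
    ∀ i : Fin t, Tower.IsNewAt N ((qv i : Nat.Primes) : ℕ) x}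
  zero_mem' := ⟨(thetaPart N p S θ).zero_mem, smul_zero _, fun _ => Tower.IsNewAt.zero _ _⟩
  add_mem' := fun hx hy => ⟨(thetaPart N p S θ).add_mem hx.1 hy.1, by
    rw [nsmul_add, hx.2.1, hy.2.1, add_zero], fun i => (hx.2.2 i).add (hy.2.2 i)⟩
  neg_mem' := fun hx => ⟨(thetaPart N p S θ).neg_mem hx.1, by rw [neg_nsmul, hx.2.1, neg_zero],
    fun i => (hx.2.2 i).neg⟩

variable {N Nq q : ℕ} [NeZero N] [NeZero Nq] [NeZero q]

/-- the `Q`-new part of `ker Π_q` in `thetaPart Nq [p^a]`. -/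
def Uup (h : Nq = N * q) (a : ℕ) : AddSubgroup (JZero Nq) where
  carrier := {x | x ∈ thetaPart Nq p S θ ∧ p ^ a • x = 0 ∧ (∀ c : Fin 2, dnE h c x = 0) ∧
    ∀ i : Fin t, Tower.IsNewAt Nq ((qv i : Nat.Primes) : ℕ) x}
  zero_mem' := ⟨(thetaPart Nq p S θ).zero_mem, smul_zero _, fun _ => map_zero _,
    fun _ => Tower.IsNewAt.zero _ _⟩
  add_mem' := fun hx hy => ⟨(thetaPart Nq p S θ).add_mem hx.1 hy.1, by
    rw [nsmul_add, hx.2.1, hy.2.1, add_zero], fun c => by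
    rw [map_add, hx.2.2.1 c, hy.2.2.1 c, add_zero], fun i => (hx.2.2.2 i).add (hy.2.2.2 i)⟩
  neg_mem' := fun hx => ⟨(thetaPart Nq p S θ).neg_mem hx.1, by rw [neg_nsmul, hx.2.1, neg_zero],
    fun c => by rw [map_neg, hx.2.2.1 c, neg_zero], fun i => (hx.2.2.2 i).neg⟩

variable {p S θ qv}

theorem mem_thTors {k : ℕ} {x : JZero N} :
    x ∈ thTors p S θ N k ↔ x ∈ thetaPart N p S θ ∧ p ^ k • x = 0 := Iff.rfl

theorem mem_Ulow {a : ℕ} {x : JZero N} : x ∈ Ulow p S θ qv N a ↔ x ∈ thetaPart N p S θ ∧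
    p ^ a • x = 0 ∧ ∀ i : Fin t, Tower.IsNewAt N ((qv i : Nat.Primes) : ℕ) x := Iff.rfl

theorem mem_Uup {h : Nq = N * q} {a : ℕ} {x : JZero Nq} : x ∈ Uup p S θ qv h a ↔
    x ∈ thetaPart Nq p S θ ∧ p ^ a • x = 0 ∧ (∀ c : Fin 2, dnE h c x = 0) ∧
      ∀ i : Fin t, Tower.IsNewAt Nq ((qv i : Nat.Primes) : ℕ) x := Iff.rfl

theorem thTors_gal (k : ℕ) (g : GQ) (x : JZero N) (hx : x ∈ thTors p S θ N k) :
    g • x ∈ thTors p S θ N k :=
  ⟨smul_mem_thetaPart g hx.1, by rw [smul_comm, hx.2]; exact smul_zero (A := JZero N) g⟩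

theorem Ulow_gal (a : ℕ) (g : GQ) (x : JZero N) (hx : x ∈ Ulow p S θ qv N a) :
    g • x ∈ Ulow p S θ qv N a :=
  ⟨smul_mem_thetaPart g hx.1, by rw [smul_comm, hx.2.1]; exact smul_zero (A := JZero N) g,
    fun i => (hx.2.2 i).smul g⟩

theorem Uup_gal (h : Nq = N * q) (a : ℕ) (g : GQ) (x : JZero Nq) (hx : x ∈ Uup p S θ qv h a) :
    g • x ∈ Uup p S θ qv h a :=
  ⟨smul_mem_thetaPart g hx.1, by rw [smul_comm, hx.2.1]; exact smul_zero (A := JZero Nq) g,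
    fun c => by rw [dnE_smul, hx.2.2.1 c]; exact smul_zero (A := JZero N) g,
    fun i => (hx.2.2.2 i).smul g⟩

theorem pow_smul_of_le_soft {Y : Type*} [AddCommGroup Y] {a k : ℕ} (hak : a ≤ k) {x : Y}
    (hx : p ^ a • x = 0) : p ^ k • x = 0 := by
  obtain ⟨c, rfl⟩ := Nat.exists_eq_add_of_le hak
  rw [pow_add, mul_comm, mul_smul, hx, smul_zero]

theorem Uup_le_thTors (h : Nq = N * q) {a k : ℕ} (hak : a ≤ k) :
    Uup p S θ qv h a ≤ thTors p S θ Nq k :=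
  fun _ hx => ⟨hx.1, pow_smul_of_le_soft hak hx.2.1⟩

theorem Uup_le_thetaPart (h : Nq = N * q) (a : ℕ) : Uup p S θ qv h a ≤ thetaPart Nq p S θ :=
  fun _ hx => hx.1

/-! ### the geometric block -/

theorem upE_mem_thTors (h : Nq = N * q) (hS : ∀ r : ℕ, r.Prime → r ∉ S → ¬ r ∣ Nq * p) {a k : ℕ}
    (hak : a ≤ k) (c : Fin 2) (v : JZero N) (hv : v ∈ Ulow p S θ qv N a) :
    upE h c v ∈ thTors p S θ Nq k :=
  ⟨upE_mem_thetaPart h hS c hv.1, by
    rw [← map_nsmul, pow_smul_of_le_soft hak hv.2.1, map_zero]⟩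

theorem embE_mem_thTors (h : Nq = N * q) (hS : ∀ r : ℕ, r.Prime → r ∉ S → ¬ r ∣ Nq * p) {a k : ℕ}
    (hak : a ≤ k) (ε : ℤ) (v : JZero N) (hv : v ∈ Ulow p S θ qv N a) :
    embE h ε v ∈ thTors p S θ Nq k :=
  ⟨embE_mem_thetaPart h hS ε hv.1, by
    rw [← map_nsmul, pow_smul_of_le_soft hak hv.2.1, map_zero]⟩

/-- **(EMB)** -/
theorem embE_mem_Uup (hp : p.Prime) (hq : q.Prime) (hqN : ¬ q ∣ N) (hqp : q ≠ p) (h : Nq = N * q)
    (hS : ∀ r : ℕ, r.Prime → r ∉ S → ¬ r ∣ Nq * p) (hqv : ∀ i, ((qv i : Nat.Primes) : ℕ) ≠ q)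
    {ε : ℤ} (hε : ε * ε = 1) {a : ℕ} {A : ValuationSubring Qbar} (hA : A.LiesOverPrime q) {σ : GQ}
    (hσ : A.IsFrobeniusAt σ q) {v : JZero N} (hv : v ∈ Ulow p S θ qv N a)
    (hc : σ • v + q • σ⁻¹ • v = (ε * ((q : ℤ) + 1)) • v) : embE h ε v ∈ Uup p S θ qv h a :=
  ⟨embE_mem_thetaPart h hS ε hv.1, by rw [← map_nsmul, hv.2.1, map_zero],
    fun c => dnE_embE_of_frob hq hqN hp hqp hε h hA hσ ⟨a, hv.2.1⟩ hc c,
    fun i => isNewAt_embE hq (qv i).2 (hqv i) h ε (hv.2.2 i)⟩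

end Defs

end Fermat.Agent.ML.Lift
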