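import Fermat.Agent.ML.Lift.Soft.Core

/-!
# ML / LIFT / Soft / Asm : `StepNumStmt → SoftMidStmt → StepAtpStmt → StepSoftStmt`
-/

set_option autoImplicit false
set_option linter.unusedSectionVars false

noncomputable section

open AlgebraicCurve ModularCurve

namespace Fermat.Agent.ML.Lift

open Fermat.Agent.RIB Fermat.Agent.RIB.Rho Fermat.Agent.GAL Fermat.Agent.GAL.PC Fermat.Agent.ML
  Fermat.Agent.ML.TWFree Fermat.Agent.ML.ESide

local notation "Qbar" => AlgebraicClosure ℚ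
local notation "GQ" => (AlgebraicClosure ℚ ≃ₐ[ℚ] AlgebraicClosure ℚ)
local notation "M₂" => Matrix (Fin 2) (Fin 2)

/-! ### levels -/

theorem cellLevel_insert (L₀ : ℕ) {P : Finset ℕ} {q : ℕ} (hqP : q ∉ P) (hq2 : q ≠ 2) :
    cellLevel L₀ (insert q P) = cellLevel L₀ P * q := by
  have e : (insert q P).erase 2 = insert q (P.erase 2) := Finset.erase_insert_of_ne hq2
  rw [cellLevel, cellLevel, e, Finset.prod_insert (fun h => hqP (Finset.mem_of_mem_erase h))]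
  ring

section LCtx

variable {W : WeierstrassCurve ℤ} {p : ℕ} [Fact p.Prime] {T : Finset ℕ}
  {b : Module.Basis (Fin 2) (ZMod p) (TorsW W p)} {L₀ : ℕ} [NeZero L₀] {eps : ℕ → ℤ} {eP : GQ → ℤ}

theorem cellLevel_ne_zero (X : LCtx W p T b L₀ eps eP) {P : Finset ℕ}
    (hP : P ⊆ Pfin W (rbarB b) L₀) : cellLevel L₀ P ≠ 0 := by
  rw [cellLevel]
  refine Nat.mul_ne_zero (NeZero.ne L₀) (Finset.prod_ne_zero_iff.2 fun r hr => ?_)
  exact (X.prime_of_mem_Pfin (hP (Finset.mem_of_mem_erase hr))).ne_zero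

theorem mem_T_of_dvd_cellLevel (X : LCtx W p T b L₀ eps eP) {P : Finset ℕ}
    (hP : P ⊆ Pfin W (rbarB b) L₀) {r : ℕ} (hr : r.Prime) (hd : r ∣ cellLevel L₀ P * p) :
    r ∈ T := by
  rw [cellLevel, mul_right_comm] at hd
  rcases (Nat.Prime.dvd_mul hr).1 hd with h | h
  · exact X.BP.levT r hr h
  · obtain ⟨q', hq', hrq⟩ := (Prime.dvd_finsetProd_iff hr.prime _).1 h
    have h1 := hP (Finset.mem_of_mem_erase hq')
    rw [(Nat.prime_dvd_prime_iff_eq hr (X.prime_of_mem_Pfin h1)).1 hrq]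
    exact X.hbadT q' (X.prime_of_mem_Pfin h1) (X.dvd_of_mem_Pfin h1)

theorem four_dvd_cellLevel (X : LCtx W p T b L₀ eps eP) (P : Finset ℕ) : 4 ∣ cellLevel L₀ P := by
  obtain ⟨M, hM, -, -⟩ := X.BP.shape
  rw [cellLevel, hM]
  exact Dvd.dvd.mul_right (Dvd.intro_left M rfl) _

theorem not_dvd_cellLevel (X : LCtx W p T b L₀ eps eP) {P : Finset ℕ}
    (hP : P ⊆ Pfin W (rbarB b) L₀) {q : ℕ} (hq : q ∈ Pfin W (rbarB b) L₀) (hqP : q ∉ P)
    (hq2 : q ≠ 2) : ¬ q ∣ cellLevel L₀ P := by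
  intro hd
  have hqpr := X.prime_of_mem_Pfin hq
  rw [cellLevel] at hd
  rcases (Nat.Prime.dvd_mul hqpr).1 hd with h | h
  · exact X.not_dvd_of_mem_Pfin hq hq2 h
  · obtain ⟨q', hq', hrq⟩ := (Prime.dvd_finsetProd_iff hqpr.prime _).1 h
    have h1 := Finset.mem_of_mem_erase hq'
    rw [(Nat.prime_dvd_prime_iff_eq hqpr (X.prime_of_mem_Pfin (hP h1))).1 hrq] at hqP
    exact hqP h1

end LCtx

/-- the primes of `lvl L (extP qv) t * p`. -/
theorem mem_cutS_lvl {p : ℕ} [Fact p.Prime] {T : Finset ℕ} {θ : ℕ → ℤ} {L t n : ℕ} {qv : Fin t → Nat.Primes}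
    (h : MTW p T θ L t n qv) {r : ℕ} (hr : r.Prime) (hd : r ∣ lvl L (extP qv) t * p) :
    r ∈ cutS T qv := by
  rw [lvl_eq_lev] at hd
  exact Tau.mem_cutS_lev h Finset.univ hr hd

/-- a prime of `T` which does not divide `L` does not divide `lvl L (extP qv) t`. -/
theorem not_dvd_lvl {p : ℕ} {T : Finset ℕ} {θ : ℕ → ℤ} {L t n : ℕ} {qv : Fin t → Nat.Primes}
    (h : MTW p T θ L t n qv) {q : ℕ} (hq : q.Prime) (hqT : q ∈ T) (hqL : ¬ q ∣ L) :
    ¬ q ∣ lvl L (extP qv) t := by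
  intro hd
  rw [lvl_eq_lev, lev] at hd
  rcases (Nat.Prime.dvd_mul hq).1 hd with h2 | h2
  · exact hqL h2
  · obtain ⟨i, -, hi⟩ := (Prime.dvd_finsetProd_iff (Nat.prime_iff.1 hq) _).1 h2
    have h5 : q ∣ ((qv i : Nat.Primes) : ℕ) := by
      rcases (Nat.Prime.dvd_mul hq).1 hi with h | h <;> exact h
    rw [(Nat.prime_dvd_prime_iff_eq hq (qv i).2).1 h5] at hqT
    exact h.notT i hqT

/-! ### numerics -/

theorem big_of_frm {p d f e t a m c : ℕ} (hp : 1 < p)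
    (hC : d * f * (e * (t + 1)) ^ t * (a + 1) ^ t < m ^ (t + 1)) (hc : p ^ (m ^ (t + 1)) ≤ c) :
    p ^ (d * f * (e * ((t + 1) * a + 1)) ^ t) < c := by
  refine lt_of_lt_of_le (Nat.pow_lt_pow_right hp (lt_of_le_of_lt ?_ hC)) hc
  rw [mul_assoc (d * f), ← mul_pow]
  refine Nat.mul_le_mul_left _ (Nat.pow_le_pow_left ?_ t)
  rw [mul_assoc]
  refine Nat.mul_le_mul_left _ ?_
  nlinarith

/-! ### the assembly -/

/-- **StepSoftStmt** from its three contracts. -/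
theorem stepSoft_of (hNum : StepNumStmt) (hMid : SoftMidStmt) (hAtp : StepAtpStmt) :
    StepSoftStmt := by
  intro W p _ T b L₀ _ eps eP X t P q hP hq hqP hq2 hqp hns hpP h2P hPns
  have hp : p.Prime := Fact.out
  have hqpr : q.Prime := X.prime_of_mem_Pfin hq
  have : NeZero q := ⟨hqpr.ne_zero⟩
  obtain ⟨d, hd⟩ := hNum W p T b L₀ eps eP X t P q hP hq hqP hq2 hqp hpP
  obtain ⟨f, hf⟩ := hMid W p T b L₀ eps eP X t P q hP hq hqP hq2 hqp hns hpP h2P hPns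
  obtain ⟨e, he⟩ : ∃ e : ℕ, p ^ d < 2 ^ e := ⟨p ^ d, Nat.lt_two_pow_self⟩
  refine ⟨f + 1, d * f * (e * (t + 1)) ^ t, fun a m n K qv hF hbig Lc' _ hLc' => ?_⟩
  have hF0 : Frm p X.C.hp2 T W.apOfModel (rbarB b) t 0 0 a m n K qv :=
    hF.mono (Nat.zero_le _) (Nat.zero_le _)
  have ha1 : 1 ≤ a := by have := hF.ha; omega
  obtain ⟨Lc, hLc⟩ : ∃ Lc, Lc = cellLevel L₀ P := ⟨_, rfl⟩
  have : NeZero Lc := ⟨hLc ▸ cellLevel_ne_zero X hP⟩
  have hL : Lc' = Lc * q := by rw [hLc', hLc, cellLevel_insert L₀ hqP hq2]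
  have hP' : insert q P ⊆ Pfin W (rbarB b) L₀ := Finset.insert_subset hq hP
  obtain ⟨G, hG, hGc⟩ := hbig Lc hLc
  -- the Taylor-Wiles data at the two levels
  have hTW : MTW p T W.apOfModel Lc t n qv :=
    hF.tw Lc (fun r hr hd => mem_T_of_dvd_cellLevel X hP hr (hLc ▸ hd))
      (hLc ▸ four_dvd_cellLevel X P)
  have hTW' : MTW p T W.apOfModel Lc' t n qv :=
    hF.tw Lc' (fun r hr hd => mem_T_of_dvd_cellLevel X hP' hr (hLc' ▸ hd))
      (hLc' ▸ four_dvd_cellLevel X _)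
  have hqT : q ∈ T := X.hbadT q hqpr (X.dvd_of_mem_Pfin hq)
  have hqN : ¬ q ∣ lvl Lc (extP qv) t :=
    not_dvd_lvl hTW hqpr hqT (hLc ▸ not_dvd_cellLevel X hP hq hqP hq2)
  have hS : ∀ r : ℕ, r.Prime → r ∣ lvl Lc' (extP qv) t * p → r ∈ cutS T qv :=
    fun r hr hd => mem_cutS_lvl hTW' hr hd
  have hqv : ∀ i, ((qv i : Nat.Primes) : ℕ) ≠ q := fun i h => hTW.notT i (h ▸ hqT)
  have hqvp : ∀ i, ((qv i : Nat.Primes) : ℕ) ≠ p := fun i h => hTW.notT i (h ▸ X.C.p_mem)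
  have hε : eps q * eps q = 1 := by
    rcases (X.sgn q hqpr hqp (X.dvd_of_mem_Pfin hq)).1 with h | h <;> rw [h] <;> norm_num
  have haK : a ≤ K + 1 := hF.hK.trans (Nat.le_succ K)
  -- (NUM)
  obtain ⟨A, τ, D, hA, hτ, hcyc, hcog, hcog', hsize'⟩ := hd a m n K qv hF0 ha1 Lc Lc' hLc hL
  -- the ring
  obtain ⟨B, hTop, hEK, R, _, _, _, _, _, πE, ρ, Φ, HR⟩ :=
    exists_topRho (b := b) (N := lvl Lc' (extP qv) t) X.H.hΔ X.H.hss X.C.hp2 X.H.hirr X.C.nf K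
      (cutS T qv) hS
      (fun r hr hrS hd => hrS (subset_cutS T qv (X.hbadT r hr hd)))
      (thTors p (↑(cutS T qv) : Set ℕ) W.apOfModel (lvl Lc' (extP qv) t) (K + 1))
      (thTors_gal (K + 1)) (fun x hx => hx.2) (fun x hx => hx.1)
  -- `G ≠ ⊥`
  have hm0 : 0 < m ^ (t + 1) := lt_of_le_of_lt (Nat.zero_le _) hF.hC
  have hG0 : G ≠ ⊥ := by
    rintro rfl
    have h1 : Nat.card ↥(⊥ : AddSubgroup (JZero (lvl Lc (extP qv) t))) = 1 :=
      Nat.card_eq_one_iff_unique.2 ⟨inferInstance, inferInstance⟩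
    rw [h1] at hGc
    exact absurd hGc (not_le.2 (Nat.one_lt_pow hm0.ne' hp.one_lt))
  -- (MID)
  obtain ⟨u, δ, β', Nn, hM⟩ := hf a m n K qv hF0 ha1 Lc Lc' hLc hL G hG hG0 B hTop hEK R πE ρ Φ HR
  -- the step
  obtain ⟨G', hG'gal, hG'le, hG'c, hG'r⟩ := step_core (m := m) (lvl_mul_q hL qv) hqpr hqN hqp hS
    (X.C.nonEis (cutS T qv)) (subset_cutS T qv hqT) hqv hqvp hε ha1 haK hA hτ G hG.gal
    (fun x hx => mem_boxG_of_inBox hA hτ ⟨hG.le hx, (hG.box x hx).1, hG.new x hx⟩ (hG.box x hx))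
    hcog he hcog' hsize' HR (pi0 πE) (fun s hs => TopCtx.isNilpotent_of_pi0 HR hs)
    (fun i => by
      have h1 : (ρ (τ i)).map (pi0 πE) = 1 := by
        rw [hTop.lift HR, X.C.unramT _ (qv i).2 (hTW.notT i) (A i) (hA i) (τ i) (hτ i)]
      have h2 : pi0 πE (ρ (τ i)).trace = ((ρ (τ i)).map (pi0 πE)).trace := by
        rw [Matrix.trace_fin_two, Matrix.trace_fin_two, map_add]
        rfl
      rw [map_sub, h2, h1, Matrix.trace_one, Fintype.card_fin, map_ofNat]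
      norm_num)
    u δ β' Nn hM.hu hM.gen hM.hN hM.val hM.frob
    (big_of_frm hp.one_lt hF.hC hGc) (by have := hF.ha; omega)
  obtain ⟨hst, hur, hunip⟩ := hM.out G' hG'gal fun x hx => by
    obtain ⟨x₁, h1, h2⟩ := hG'r x hx
    exact ⟨x₁, h1.1, h2⟩
  refine ⟨G', ⟨fun x hx => (hG'le hx).1.1, hG'gal, ?_, fun x hx => (hG'le hx).1.2.2.2, hst, hur,
    hunip, fun hpL => ?_⟩, hG'c⟩
  · exact inBox_of_cyc (e := fun _ => a) hA hcyc (fun _ => le_rfl) G' (fun x hx => (hG'le hx).1.1)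
      hG'gal (fun x hx => (hG'le hx).2.1) (fun i x hx => (hG'le hx).2.2 i)
  · have hpP' : p ∉ insert q P := by
      rw [Finset.mem_insert, not_or]
      exact ⟨Ne.symm hqp, hpP⟩
    have h1 := hAtp W p T b L₀ eps eP X t (insert q P) hP' hpP' a m n K qv hF0 Lc' hLc' hpL
    intro s₁ hs₁ s₂ hs₂ x hx
    exact h1 s₁ hs₁ s₂ hs₂ x ⟨(hG'le hx).1.1, (hG'le hx).2.1⟩

end Fermat.Agent.ML.Lift
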