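import Fermat.Agent.ML.Lift.Soft.Spec
import Fermat.Agent.ML.Lift.Base.Loc

/-!
# ML / LIFT / Soft / OutAuto : the automatic part of the field `out` of `MidOut`

`LCtx.midOut_out` : the three conjuncts of `MidOut.out` (VERBATIM) for a set `G'` of `p`-power torsion points at the level
`lvl Lc' (extP qv) t`, `Lc' = cellLevel L₀ P * q`, from

* `LocSt q' (eps q')` at the raised primes `q' ∈ insert q P`, `q' ≠ p`;
* ONE condition at `2` (`LocUr 2` resp. `LocUnip 2`).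

`LCtx.midOut_out'` : the same with the hypothesis `hout` of `MidOut.out` instead of the torsion hypothesis.
Valid for every odd `q ∈ Pfin \ P` (`q = p` allowed): soft, hard and `p`-steps.
-/

set_option autoImplicit false
set_option linter.unusedSectionVars false

noncomputable section

open AlgebraicCurve ModularCurve

namespace Fermat.Agent.ML.Lift

open Fermat.Agent.RIB Fermat.Agent.RIB.Rho Fermat.Agent.GAL Fermat.Agent.GAL.PC Fermat.Agent.ML
  Fermat.Agent.ML.TWFree Fermat.Agent.ML.ESide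

local notation "Qbar" => AlgebraicClosure ℚ
local notation "GQ" => (AlgebraicClosure ℚ ≃ₐ[ℚ] AlgebraicClosure ℚ)
local notation "M₂" => Matrix (Fin 2) (Fin 2)

variable {W : WeierstrassCurve ℤ} {p : ℕ} [Fact p.Prime] {T : Finset ℕ}
  {b : Module.Basis (Fin 2) (ZMod p) (TorsW W p)} {L₀ : ℕ} [NeZero L₀] {eps : ℕ → ℤ} {eP : GQ → ℤ}

/-- the level of the new state. -/
theorem outAuto_cellLevel (L₀ : ℕ) {P : Finset ℕ} {q : ℕ} (hqP : q ∉ P) (hq2 : q ≠ 2) :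
    cellLevel L₀ (insert q P) = cellLevel L₀ P * q := by
  unfold cellLevel
  rw [Finset.erase_insert_of_ne hq2,
    Finset.prod_insert (fun h => hqP (Finset.mem_of_mem_erase h))]
  ring

variable {P : Finset ℕ} {q : ℕ} {Lc Lc' : ℕ} [NeZero Lc'] {t : ℕ} {qv : Fin t → Nat.Primes}

/-- **the field `out` of `MidOut`** from `LocSt` at the raised primes and one condition at `2`. -/
theorem _root_.Fermat.Agent.ML.LCtx.midOut_out (X : LCtx W p T b L₀ eps eP)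
    (hP : P ⊆ Pfin W (rbarB b) L₀) (hq : q ∈ Pfin W (rbarB b) L₀) (hqP : q ∉ P) (hq2 : q ≠ 2)
    (hLc : Lc = cellLevel L₀ P) (hL : Lc' = Lc * q)
    (hnotT : ∀ i, ((qv i : Nat.Primes) : ℕ) ∉ T)
    (G' : Set (JZero (lvl Lc' (extP qv) t))) (htors : ∀ x ∈ G', ∃ n : ℕ, p ^ n • x = 0)
    (st : ∀ q' ∈ insert q P, q' ≠ p → LocSt q' (eps q') G')
    (ur2 : 2 ∉ P → ¬ Ram (rbarB b) 2 → LocUr 2 G')
    (unip2 : 2 ∈ P ∨ Ram (rbarB b) 2 → LocUnip 2 G') :
    (∀ q' ∈ insert q P, q' ≠ p → LocSt q' (eps q') G' ∧ LocUnip q' G') ∧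
    (∀ q' : ℕ, q'.Prime → q' ∈ T → q' ∉ insert q P → q' ≠ p → ¬ Ram (rbarB b) q' →
      LocUr q' G') ∧
    (∀ q' : ℕ, q'.Prime → q' ≠ p → Ram (rbarB b) q' → LocUnip q' G') := by
  have hP' : insert q P ⊆ Pfin W (rbarB b) L₀ := Finset.insert_subset hq hP
  have hLc' : Lc' = cellLevel L₀ (insert q P) := by
    rw [outAuto_cellLevel L₀ hqP hq2, hL, hLc]
  refine ⟨fun q' hq' hq'p => ⟨st q' hq' hq'p, ?_⟩, fun q' hq' hq'T hq'P hq'p hram => ?_,
    fun q' hq' hq'p hram => ?_⟩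
  · by_cases h2 : q' = 2
    · subst h2
      rcases Finset.mem_insert.1 hq' with h | h
      · exact absurd h.symm hq2
      · exact unip2 (Or.inl h)
    · exact X.cell_unip_of_mem hP' hLc' hnotT G' htors (X.prime_of_mem_Pfin (hP' hq'))
        (X.hbadT q' (X.prime_of_mem_Pfin (hP' hq')) (X.dvd_of_mem_Pfin (hP' hq'))) hq'p h2
  · by_cases h2 : q' = 2
    · subst h2
      exact ur2 (fun h => hq'P (Finset.mem_insert_of_mem h)) hram
    · exact X.cell_ur_odd hP' hLc' hnotT G' htors hq' hq'T hq'P hq'p h2 hram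
  · by_cases h2 : q' = 2
    · subst h2
      exact unip2 (Or.inr hram)
    · exact X.cell_unip_odd hP' hLc' hnotT G' htors hq' hq'p h2 hram

/-- the same, with the hypothesis `hout` of `MidOut.out`. -/
theorem _root_.Fermat.Agent.ML.LCtx.midOut_out' (X : LCtx W p T b L₀ eps eP)
    (hP : P ⊆ Pfin W (rbarB b) L₀) (hq : q ∈ Pfin W (rbarB b) L₀) (hqP : q ∉ P) (hq2 : q ≠ 2)
    (hLc : Lc = cellLevel L₀ P) (hL : Lc' = Lc * q)
    (hnotT : ∀ i, ((qv i : Nat.Primes) : ℕ) ∉ T) {S : Set ℕ} {θ : ℕ → ℤ} {k : ℕ}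
    {R : Type*} [CommRing R] [Module R ↥(thTors p S θ (lvl Lc' (extP qv) t) k)] {β' : R}
    {U' : AddSubgroup (JZero (lvl Lc' (extP qv) t))}
    (G' : AddSubgroup (JZero (lvl Lc' (extP qv) t)))
    (hout : ∀ x ∈ G', ∃ x₁ : ↥(thTors p S θ (lvl Lc' (extP qv) t) k),
      (x₁ : JZero (lvl Lc' (extP qv) t)) ∈ U' ∧
        ((β' • x₁ : ↥(thTors p S θ (lvl Lc' (extP qv) t) k)) : JZero (lvl Lc' (extP qv) t)) = x)
    (st : ∀ q' ∈ insert q P, q' ≠ p →
      LocSt q' (eps q') (G' : Set (JZero (lvl Lc' (extP qv) t))))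
    (ur2 : 2 ∉ P → ¬ Ram (rbarB b) 2 → LocUr 2 (G' : Set (JZero (lvl Lc' (extP qv) t))))
    (unip2 : 2 ∈ P ∨ Ram (rbarB b) 2 →
      LocUnip 2 (G' : Set (JZero (lvl Lc' (extP qv) t)))) :
    (∀ q' ∈ insert q P, q' ≠ p →
      LocSt q' (eps q') (G' : Set (JZero (lvl Lc' (extP qv) t))) ∧
        LocUnip q' (G' : Set (JZero (lvl Lc' (extP qv) t)))) ∧
    (∀ q' : ℕ, q'.Prime → q' ∈ T → q' ∉ insert q P → q' ≠ p → ¬ Ram (rbarB b) q' →
      LocUr q' (G' : Set (JZero (lvl Lc' (extP qv) t)))) ∧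
    (∀ q' : ℕ, q'.Prime → q' ≠ p → Ram (rbarB b) q' →
      LocUnip q' (G' : Set (JZero (lvl Lc' (extP qv) t)))) :=
  X.midOut_out hP hq hqP hq2 hLc hL hnotT _ (fun x hx => by
    obtain ⟨x₁, -, rfl⟩ := hout x hx
    exact ⟨k, (β' • x₁).2.2⟩) st ur2 unip2

end Fermat.Agent.ML.Lift
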