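/-
ML / LIFT / Soft / MidTwo : the package at `2` (`At2.Pkg2`, on `V = X × Λ²`) in the shapes of `MidAbs.mid_abs` / `MidOut`
(on a stage module `Y ≤ X` and on sets of points of `J₀(L)`).

* `mid_in_unip`;
* `two_val`     : the value of `β₂` on `Y`;
* `two_val0`    : `k2 = 0` : `β₂ x = N₂ x` on `Y`  (`hval0` of `mid_abs`);
* `two_locPkg`  : `k2 = 1` : `LocPkg p π0 ρ Y twoP (u 0) (dl 0) β₂ N₂ f` and the weight inequality;
* `two_out`     : `β₂ ∣ β'`, `G' ⊆ β' X` ⟹ `LocUr 2` / `LocUnip 2` / `LocSt 2` on `G'`;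
* `two_trace`, `exists_two_top` : existence in the frame `TopCtx` + `IsRhoK`.
-/
import Fermat.Agent.ML.At2.Cell2Pol
import Fermat.Agent.ML.Lift.Soft.MidLoc

set_option autoImplicit false
set_option linter.unusedSectionVars false

noncomputable section

open ModularCurve

namespace Fermat.Agent.ML.Raise

open Matrix Fermat.Agent.RIB Fermat.Agent.ML Fermat.Agent.S56 Fermat.Agent.S56.Gen ExtCitation
  Fermat.Agent.ML.Rho Fermat.Agent.ML.Lift Fermat.Agent.ML.ESide Fermat.Agent.ML.StepGen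
  Fermat.Agent.ML.At2
open CFT (decomp)

local notation "M₂" => Matrix (Fin 2) (Fin 2)
local notation "Qbar" => AlgebraicClosure ℚ

section VJ

variable {L m : ℕ} [NeZero L] [NeZero m] {R : Type} [CommRing R] [Algebra (ZMod m) R]
  {X : AddSubgroup (JZero L)} [Module R ↥X] {rE : GQ →* M₂ (ZMod m)}
  {πE : R →ₐ[ZMod m] ZMod m} {ρ : GQ →* M₂ R} {Φ : M₂ R →ₐ[R] Module.End R ↥X}
  (H : Fermat.Agent.ML.Rho.IsRhoK L m X rE πE ρ Φ)

include H in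
theorem mid_in_unip (Y : Submodule R ↥X) {G₁ : Set (JZero L)}
    (hYS : ∀ y ∈ Y, ((y : ↥X) : JZero L) ∈ G₁) {q : ℕ} (h : LocUnip q G₁) :
    LocUnip q (subVJ rE πE ρ Φ Y : Set (VJ X rE πE ρ Φ)) := by
  intro A hA τ hτ τ' hτ' v hv
  refine H.ext_VJ ?_ ?_
  · show XJ.incl X ρ Φ (τ' • (τ • v.1 - v.1)) = XJ.incl X ρ Φ (τ • v.1 - v.1)
    rw [H.coe_gal, map_sub, H.coe_gal]
    exact h A hA τ hτ τ' hτ' _ (hYS _ hv.1)
  · show τ' • (τ • v.2 - v.2) = τ • v.2 - v.2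
    rw [hv.2, smul_zero, sub_zero, smul_zero]

variable {p : ℕ} [Fact p.Prime] {rbar0 : GQ →* M₂ (ZMod p)} {π0 : R →+* ZMod p} {P : Finset ℕ}
  {ε N2 : ℤ}

section In

variable (Y : Submodule R ↥X)
  (hYG : ∀ (g : GQ), ∀ y ∈ Y, ∀ y' : ↥X, (y' : JZero L) = g • (y : JZero L) → y' ∈ Y)
  {G₁ : AddSubgroup (JZero L)} (hG₁ : ∀ s : GQ, ∀ x ∈ G₁, s • x ∈ G₁)
  (hYS : ∀ y ∈ Y, ((y : ↥X) : JZero L) ∈ G₁)
  (hur : ¬ Ram rbar0 2 → 2 ∉ P → LocUr 2 (G₁ : Set (JZero L)))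
  (hun : Ram rbar0 2 ∨ 2 ∈ P → LocUnip 2 (G₁ : Set (JZero L)))
  (hst : 2 ∈ P → LocSt 2 ε (G₁ : Set (JZero L)))

include H hYG hG₁ hYS hur hun hst

/-- the value of `β₂` on the stage module. -/
theorem two_val {k2 : ℕ} {u dl : Fin k2 → R} {β2 : R}
    (K2 : Pkg2 (V := VJ X rE πE ρ Φ) rbar0 π0 ρ P ε N2 k2 u dl β2) :
    ∀ x ∈ Y, (∀ j, (u j - (p : R) * dl j) • x = 0) → β2 • x = N2 • x := by
  intro x hx hj
  have h := K2.val (subVJ rE πE ρ Φ Y) (smul_mem_subVJ H hYG)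
    (fun a c => mid_in_ur H Y hYS (hur a c)) (fun a => mid_in_unip H Y hYS (hun a))
    (fun a => mid_in_st H Y hG₁ hYS (hst a)) (inlVJ rE πE ρ Φ x) (inlVJ_mem hx)
    (fun j => Prod.ext (hj j) (smul_zero _))
  exact congrArg Prod.fst h

/-- `k2 = 0` : `hval0` of `mid_abs`. -/
theorem two_val0 {u dl : Fin 0 → R} {β2 : R}
    (K2 : Pkg2 (V := VJ X rE πE ρ Φ) rbar0 π0 ρ P ε N2 0 u dl β2) :
    ∀ x ∈ Y, β2 • x = N2 • x :=
  fun x hx => two_val H Y hYG hG₁ hYS hur hun hst K2 x hx fun j => j.elim0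

/-- `k2 = 1` : the package of `mid_abs` at `2`, and its weight. -/
theorem two_locPkg {u dl : Fin 1 → R} {β2 : R}
    (K2 : Pkg2 (V := VJ X rE πE ρ Φ) rbar0 π0 ρ P ε N2 1 u dl β2) {f : ℕ}
    (hf : ¬ (p : ℤ) ^ (f + 1) ∣ N2) :
    LocPkg p π0 ρ Y twoP (u 0) (dl 0) β2 N2 f ∧
      Nat.card ↥(B1loc (adRep (mapK (kM p) rbar0)) twoP) * Nat.card (kM p) ^ 1 ≤
        Nat.card (kM p) ^ 3 := by
  have hg := K2.gen (subVJ rE πE ρ Φ Y) (smul_mem_subVJ H hYG)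
    (fun a c => mid_in_ur H Y hYS (hur a c)) (fun a => mid_in_unip H Y hYS (hun a))
    (fun a => mid_in_st H Y hG₁ hYS (hst a))
  rcases hg with ⟨h0, -⟩ | ⟨-, hw, hs⟩
  · exact absurd h0 one_ne_zero
  refine ⟨⟨K2.pi0_u 0, fun I hI => ?_, fun x hx h0 => ?_, hf⟩, hw⟩
  · have h := hs I fun j => by rwa [Subsingleton.elim j 0]
    rwa [annihilator_subVJ] at h
  · exact two_val H Y hYG hG₁ hYS hur hun hst K2 x hx fun j => by rwa [Subsingleton.elim j 0]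

end In

include H in
/-- **the output at `2`.** -/
theorem two_out {k2 : ℕ} {u dl : Fin k2 → R} {β2 : R}
    (K2 : Pkg2 (V := VJ X rE πE ρ Φ) rbar0 π0 ρ P ε N2 k2 u dl β2) {β' : R} (hβ : β2 ∣ β')
    {G' : Set (JZero L)} (hG' : ∀ x ∈ G', ∃ x₁ : ↥X, ((β' • x₁ : ↥X) : JZero L) = x) :
    (2 ∉ P → ¬ Ram rbar0 2 → LocUr 2 G') ∧ (2 ∈ P ∨ Ram rbar0 2 → LocUnip 2 G') ∧
      (2 ∈ P → LocSt 2 ε G') := by
  have hsub : G' ⊆ ofVJ X rE πE ρ Φ '' (Set.range fun y : VJ X rE πE ρ Φ => β' • y) := by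
    intro x hx
    obtain ⟨x₁, h1⟩ := hG' x hx
    exact ⟨β' • ((x₁ : XJ X ρ Φ), (0 : EMJ rE πE)), ⟨_, rfl⟩, h1⟩
  refine ⟨fun h2 hr => ?_, fun h => ?_, fun h2 => ?_⟩
  · exact locUr_mono (locUr_map (ofVJ X rE πE ρ Φ) (ofVJ_gal H) (K2.out_ur hr h2 β' hβ)) hsub
  · exact locUnip_mono (locUnip_map (ofVJ X rE πE ρ Φ) (ofVJ_gal H)
      (K2.out_unip h.symm β' hβ)) hsub
  · exact locSt_mono (locSt_map (ofVJ X rE πE ρ Φ) (ofVJ_gal H) (K2.out_st h2 β' hβ)) hsub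

end VJ

/-! ### existence on `TopCtx` -/

section Top

variable {W : WeierstrassCurve ℤ} {p : ℕ} [Fact p.Prime]
  {b : Module.Basis (Fin 2) (ZMod p) (TorsW W p)} {K : ℕ}
  {B : Module.Basis (Fin 2) (ZMod (p ^ (K + 1))) (TorsW W (p ^ (K + 1)))} {N : ℕ} [NeZero N]
  {X : AddSubgroup (JZero N)} {R : Type} [CommRing R] [Algebra (ZMod (p ^ (K + 1))) R]
  [Module R ↥X] {πE : R →ₐ[ZMod (p ^ (K + 1))] ZMod (p ^ (K + 1))} {ρ : GQ →* M₂ R}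
  {Φ : M₂ R →ₐ[R] Module.End R ↥X}

/-- `tr rbar(φ_q) = ε (q+1)` at a prime where `W[p^(K+1)]` is of Steinberg type `ε`. -/
theorem mid_trace (C : TopCtx W p b K B N X)
    (H : Fermat.Agent.ML.Rho.IsRhoK N (p ^ (K + 1)) X (rEB B) πE ρ Φ) {q : ℕ} (hq : q.Prime)
    (hqp : q ≠ p) {ε : ℤ} (hε : ε * ε = 1)
    (hE : LocSt q ε (Set.univ : Set (Rho.EM (rEB B)))) {A : ValuationSubring Qbar}
    (hA : A.LiesOverPrime q) {φ : GQ} (hφ : A.IsFrobeniusAt φ q) :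
    (rbarB b φ).trace = (ε : ZMod p) * ((q : ZMod p) + 1) := by
  have h := pi0_c_top C H hq hqp hε hE hA hφ
  rw [map_sub, sub_eq_zero, map_mul, map_add, map_one, map_natCast, map_intCast] at h
  rw [← h, ← C.lift H φ]
  exact (AddMonoidHom.map_trace (pi0 πE).toAddMonoidHom (ρ φ)).symm

/-- **existence of the package at `2`** in the frame of a step. -/
theorem exists_two_top {T : Finset ℕ} {θ : ℕ → ℤ} (EC : MCtx p T θ (rbarB b))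
    (C : TopCtx W p b K B N X)
    (H : Fermat.Agent.ML.Rho.IsRhoK N (p ^ (K + 1)) X (rEB B) πE ρ Φ) [IsLocalRing R] [Finite R]
    {φ : GQ} (hφ : (primeLocalPlace twoP).IsFrobeniusAt φ 2) (P : Finset ℕ) {ε : ℤ}
    (hε : ε * ε = 1) (hram : 2 ∈ P → ¬ Ram (rbarB b) 2)
    (hE : 2 ∈ P → LocSt 2 ε (Set.univ : Set (Rho.EM (rEB B)))) :
    ∃ (k2 : ℕ) (u dl : Fin k2 → R) (β2 : R),
      Pkg2 (V := VJ X (rEB B) πE ρ Φ) (rbarB b) (pi0 πE) ρ P ε (N2val (rbarB b) P φ) k2 u dl β2 ∧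
      (k2 = 1 ↔ ¬ Ram (rbarB b) 2 ∧ (2 ∈ P ∨ (rbarB b φ).trace ^ 2 = 9)) := by
  have hA := CFT.LS.liesOverPrime_primeLocalPlace twoP
  have h2p : (2 : ℕ) ≠ p := fun e => C.hp2 e.symm
  obtain ⟨n, hn⟩ : IsNilpotent (RingHom.ker (pi0 πE)) :=
    (Ideal.FG.isNilpotent_iff_le_nilradical (IsNoetherian.noetherian _)).2
      (TopCtx.ker_pi0_le_nilradical H)
  obtain ⟨k2, u, dl, β2, h1, h2, -⟩ := exists_pkg2_pol (V := VJ X (rEB B) πE ρ Φ) EC H.rhoAct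
    (EC.adjoin_range_rho' (C.lift H)) (C.cont H) (C.lift H)
    (fun a h => TopCtx.isUnit_of_pi0 H h) (N := n) hn
    (fun σ hσ => C.det_inertia H Nat.prime_two h2p hA hσ) hφ
    (by
      have := C.det_frob H Nat.prime_two h2p hA hφ
      rw [this]
      norm_num) P ε hε
    (fun h => ⟨hram h, by
      rw [mid_trace C H Nat.prime_two h2p hε (hE h) hA hφ]
      push_cast
      ring⟩)
  exact ⟨k2, u, dl, β2, h1, h2⟩

end Top

end Fermat.Agent.ML.Raise
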