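import Fermat.Agent.ML.Lift.Soft.Spec
import Fermat.Agent.ML.AtP.MaAtp

/-!
# ML / LIFT / Soft / Atp : the contract **(ATP)** of `ML/Lift/Soft/Spec.lean`

`stepAtpStmt_of : LowerStmt → StepAtpStmt`   (the field `atp` of a cell in the state `P ∌ p` : case (Ma), `p ∣ L₀`).
-/

set_option autoImplicit false

noncomputable section

open AlgebraicCurve ModularCurve

namespace Fermat.Agent.ML.Lift

open Fermat.Agent.RIB Fermat.Agent.ML Fermat.Agent.ML.ESide

/-- a prime which divides `cellLevel L₀ P` divides `L₀` or belongs to `P`. -/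
theorem dvd_base_of_dvd_cellLevel {L₀ p : ℕ} (hp : p.Prime) {P : Finset ℕ}
    (hPp : ∀ q ∈ P, q.Prime) (hpP : p ∉ P) (h : p ∣ cellLevel L₀ P) : p ∣ L₀ := by
  rw [cellLevel] at h
  rcases (Nat.Prime.dvd_mul hp).1 h with h1 | h1
  · exact h1
  · obtain ⟨q, hq, hpq⟩ := (Prime.dvd_finsetProd_iff (Nat.prime_iff.1 hp) _).1 h1
    have hqP : q ∈ P := Finset.mem_of_mem_erase hq
    exact absurd (((Nat.prime_dvd_prime_iff_eq hp (hPp q hqP)).1 hpq) ▸ hqP) hpP

/-- **(ATP)**. -/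
theorem stepAtpStmt_of (hLow : LowerStmt) : StepAtpStmt := by
  intro W p _ T b L₀ _ eps eP X t P hP hpP a m n K qv Fr Lc _ hLc hpLc
  have hp : p.Prime := Fact.out
  have hpL : p ∣ L₀ :=
    dvd_base_of_dvd_cellLevel hp (fun q hq => X.prime_of_mem_Pfin (hP hq)) hpP (hLc ▸ hpLc)
  exact X.atp_of_Ma hLow hpL hP Lc hLc Fr.tw
    (G := thTors p (↑(cutS T qv) : Set ℕ) W.apOfModel (lvl Lc (extP qv) t) a)
    (fun _ hx => (mem_thTors.1 hx).1) (thTors_gal a) fun _ hx => (mem_thTors.1 hx).2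

end Fermat.Agent.ML.Lift
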