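import Fermat.Agent.ML.Lift.Soft.Spec

/-!
# ML / LIFT / Soft / Core : `raise_step_abs` on `(Ulow N, Uup h)`, `V = thTors Nq (K+1)`, `uA = upE h 0`, `uE = embE h ε`
-/

set_option autoImplicit false
set_option linter.unusedSectionVars false

noncomputable section

open AlgebraicCurve ModularCurve

namespace Fermat.Agent.ML.Lift

open Fermat.Agent.RIB Fermat.Agent.RIB.Rho Fermat.Agent.GAL Fermat.Agent.GAL.PC Fermat.Agent.ML
  Fermat.Agent.ML.TWFree Fermat.Agent.ML.ESide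

local notation "Qbar" => AlgebraicClosure ℚ
local notation "GQ" => (AlgebraicClosure ℚ ≃ₐ[ℚ] AlgebraicClosure ℚ)
local notation "M₂" => Matrix (Fin 2) (Fin 2)

/-- `χ(τ) = 1` modulo `p^k` for `τ` in an inertia group at `l ≠ p`. -/
theorem chiM_inertia {p : ℕ} [Fact p.Prime] (k : ℕ) {l : ℕ} (hl : l.Prime) (hlp : l ≠ p)
    {A : ValuationSubring Qbar} (hA : A.LiesOverPrime l) {σ : GQ}
    (hσ : σ ∈ A.inertiaSubgroupIn ℚ) : chiM (p ^ (k + 1)) σ = 1 := by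
  have hc : Nat.Coprime (p ^ (k + 1)) l :=
    Nat.Coprime.pow_left _ ((Nat.coprime_primes Fact.out hl).2 (Ne.symm hlp))
  rw [chiM_apply, cycloChar_of_mem_inertia' _ hl hc.symm hA hσ, Units.val_one]

variable {p : ℕ} [Fact p.Prime] {S : Finset ℕ} {θ : ℕ → ℤ} {t : ℕ} {qv : Fin t → Nat.Primes}
  {N Nq q : ℕ} [NeZero N] [NeZero Nq] [NeZero q]

/-- **the raising step on the fixed objects.** -/
theorem step_core (h : Nq = N * q) (hq : q.Prime) (hqN : ¬ q ∣ N) (hqp : q ≠ p)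
    (hS : ∀ r : ℕ, r.Prime → r ∣ Nq * p → r ∈ S) (hAP : NonEisAP p (↑S : Set ℕ) θ) (hqS : q ∈ S)
    (hqv : ∀ i, ((qv i : Nat.Primes) : ℕ) ≠ q) (hqvp : ∀ i, ((qv i : Nat.Primes) : ℕ) ≠ p)
    {ε : ℤ} (hε : ε * ε = 1) {a K : ℕ} (ha : 1 ≤ a) (haK : a ≤ K + 1)
    {A : Fin t → ValuationSubring Qbar} {τ : Fin t → GQ}
    (hA : ∀ i, (A i).LiesOverPrime ((qv i : Nat.Primes) : ℕ))
    (hτ : ∀ i, τ i ∈ (A i).inertiaSubgroupIn ℚ)
    (G : AddSubgroup (JZero N)) (hGgal : ∀ g : GQ, ∀ v ∈ G, g • v ∈ G)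
    (hGU : G ≤ boxG p a τ (Ulow p (↑S : Set ℕ) θ qv N a))
    {d e D : ℕ} (hcogen : Nat.card ↥(boxG p 1 τ (Ulow p (↑S : Set ℕ) θ qv N a)) ≤ p ^ d)
    (he : p ^ d < 2 ^ e)
    (hcogen' : Nat.card ↥(boxG p 1 τ (Uup p (↑S : Set ℕ) θ qv h a)) ≤ p ^ D)
    (hsize' : p ^ (D * a ^ (t + 1)) ≤ Nat.card ↥(boxG p a τ (Uup p (↑S : Set ℕ) θ qv h a)))
    {rE : GQ →* M₂ (ZMod (p ^ (K + 1)))} {R : Type} [CommRing R]
    [Algebra (ZMod (p ^ (K + 1))) R] [Module R ↥(thTors p (↑S : Set ℕ) θ Nq (K + 1))]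
    {πE : R →ₐ[ZMod (p ^ (K + 1))] ZMod (p ^ (K + 1))} {ρ : GQ →* M₂ R}
    {Φ : M₂ R →ₐ[R] Module.End R ↥(thTors p (↑S : Set ℕ) θ Nq (K + 1))}
    (HR : Fermat.Agent.ML.Rho.IsRhoK Nq (p ^ (K + 1)) (thTors p (↑S : Set ℕ) θ Nq (K + 1)) rE πE ρ Φ)
    (π0 : R →+* ZMod p) (hnil : ∀ s : R, π0 s = 0 → IsNilpotent s)
    (hz : ∀ i, π0 ((ρ (τ i)).trace - 2) = 0)
    (u δ : Fin t → R) (β' : R) (Nn : ℤ) {f m : ℕ} (hu : ∀ k, π0 (u k) = 0)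
    (gen : RingHom.ker π0 ≤ annG (thTors p (↑S : Set ℕ) θ Nq (K + 1)) R (G.map (upE h 0)) ⊔
      Ideal.span (Set.range u) ⊔ Ideal.span {(p : R)})
    (hN : ¬ (p : ℤ) ^ (f + 1) ∣ Nn)
    (val : ∀ x : ↥(thTors p (↑S : Set ℕ) θ Nq (K + 1)), (x : JZero Nq) ∈ G.map (upE h 0) →
      (∀ k, (u k - (p : R) * δ k) • x = 0) → β' • x = Nn • x)
    (frob : ∀ x : ↥(thTors p (↑S : Set ℕ) θ Nq (K + 1)), (x : JZero Nq) ∈ G.map (upE h 0) →
      (∀ k, (u k - (p : R) * δ k) • x = 0) →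
      ∃ (A : ValuationSubring Qbar) (σ : GQ), A.LiesOverPrime q ∧ A.IsFrobeniusAt σ q ∧
        σ • (x : JZero Nq) + q • σ⁻¹ • (x : JZero Nq) = (ε * ((q : ℤ) + 1)) • (x : JZero Nq))
    (hbig : p ^ (d * f * (e * ((t + 1) * a + 1)) ^ t) < Nat.card G)
    (hm : (t + 1) * m + (f + 1) ≤ a + 1) :
    ∃ G' : AddSubgroup (JZero Nq), (∀ g : GQ, ∀ x ∈ G', g • x ∈ G') ∧
      G' ≤ boxG p a τ (Uup p (↑S : Set ℕ) θ qv h a) ∧ p ^ (m ^ (t + 1)) ≤ Nat.card G' ∧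
      ∀ x ∈ G', ∃ x₁ : ↥(thTors p (↑S : Set ℕ) θ Nq (K + 1)),
        (x₁ : JZero Nq) ∈ boxG p a τ (Uup p (↑S : Set ℕ) θ qv h a) ∧
        ((β' • x₁ : ↥(thTors p (↑S : Set ℕ) θ Nq (K + 1))) : JZero Nq) = x := by
  have hp : p.Prime := Fact.out
  have hS' : ∀ r : ℕ, r.Prime → r ∉ (↑S : Set ℕ) → ¬ r ∣ Nq * p := fun r hr hrS hd =>
    hrS (hS r hr hd)
  have hm1 : 1 < p ^ (K + 1) := Nat.one_lt_pow K.succ_ne_zero hp.one_lt
  have : Finite ↥(thTors p (↑S : Set ℕ) θ Nq (K + 1)) :=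
    Set.Finite.to_subtype ((finite_torsion_JZero Nq (p ^ (K + 1)) (NeZero.ne _)).subset
      fun x hx => hx.2)
  have hAV := upE_mem_thTors (p := p) (S := (↑S : Set ℕ)) (θ := θ) (qv := qv) h hS' haK 0
  have hAi : ∀ v ∈ Ulow p (↑S : Set ℕ) θ qv N a, upE h 0 v = 0 → v = 0 :=
    fun v hv h0 => upE_injOn hp hq hqN hAP hqS h 0 hv.1 h0
  have hcard : Fintype.card (Fin t) = t := Fintype.card_fin t
  refine raise_step_abs (Γ := GQ) (J := JZero Nq) (M := JZero N) (IsRhoK.traceRing HR) ha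
    (IsRhoK.hcomm HR) τ
    (fun i => IsRhoK.hchi HR hm1 (chiM_inertia K (qv i).2 (hqvp i) (hA i) (hτ i)))
    (Ulow p (↑S : Set ℕ) θ qv N a) G (Ulow_gal a) hGgal (fun v hv => hv.2.1) hGU
    (upE h 0) (embE h ε) (fun g v => upE_smul h 0 g v) (fun g v => embE_smul h ε g v)
    hAV (embE_mem_thTors h hS' haK ε) hAi
    (fun v hv h0 => embE_injOn hp hq hqN hAP hqS h ε hv.1 h0)
    hcogen he (Uup p (↑S : Set ℕ) θ qv h a) (Uup_gal h a) (Uup_le_thTors h haK)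
    (fun x hx => hx.2.1) hcogen' hsize' u δ ?_ ?_ (by rw [hcard]; exact hbig) β' Nn hN ?_ ?_ hm
  · intro k
    refine hnil _ ?_
    rw [map_sub, map_mul, hu k, map_natCast, ZMod.natCast_self, zero_mul, sub_zero]
  · intro i
    have h1 := gen (RingHom.mem_ker.2 (hz i))
    have h2 : annG (thTors p (↑S : Set ℕ) θ Nq (K + 1)) R (G.map (upE h 0)) ≤
        ((IsRhoK.traceRing HR).mapSub G hGgal (upE h 0) (fun g v => upE_smul h 0 g v)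
          fun v hv => hAV v (hGU hv).1).annihilator := by
      intro s hs
      rw [Submodule.mem_annihilator]
      rintro x ⟨v, hv, hx⟩
      exact hs x ⟨v, hv, hx⟩
    exact SetLike.le_def.1 (sup_le_sup_right (sup_le_sup_right h2 _) _) h1
  · intro v hv hy
    exact val _ ⟨v, hv, rfl⟩ hy
  · intro v hv hy
    obtain ⟨A', σ, hA', hσ, hc⟩ := frob _ ⟨v, hv, rfl⟩ hy
    refine embE_mem_Uup hp hq hqN hqp h hS' hqv hε hA' hσ (hGU hv).1 ?_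
    have hc' : upE h 0 (σ • v + q • σ⁻¹ • v - (ε * ((q : ℤ) + 1)) • v) = 0 := by
      rw [map_sub, map_add, map_nsmul, map_zsmul, upE_smul, upE_smul, sub_eq_zero]
      exact hc
    have hmem : σ • v + q • σ⁻¹ • v - (ε * ((q : ℤ) + 1)) • v ∈ Ulow p (↑S : Set ℕ) θ qv N a :=
      AddSubgroup.sub_mem _ (AddSubgroup.add_mem _ (Ulow_gal a σ v (hGU hv).1)
        (AddSubgroup.nsmul_mem _ (Ulow_gal a σ⁻¹ v (hGU hv).1) q))
        (AddSubgroup.zsmul_mem _ (hGU hv).1 _)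
    exact sub_eq_zero.1 (hAi _ hmem hc')

end Fermat.Agent.ML.Lift
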