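import Fermat.Agent.ML.Lift.Soft.Spec
import Fermat.Agent.ML.At2.N2.NumLvl
import Fermat.Agent.ML.TWFree.Inst.KCube

/-!
# ML / LIFT / Soft / Num : the contract **(NUM)** `StepNumStmt` of `ML/Lift/Soft/Spec.lean`

`stepNumStmt : StepNumStmt`   (unconditional).

* the places `A i`, the generators `τ i` of inertia and `CycOn` at the upper level : `TWFree.exists_isCube_cyc` at `Lc' = Lc q`;
* the cube at the lower level `Lc` for the SAME `τ` : `TWFree.isCube_of_tau_q`;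
* the numerics : `At2.num_lvl` (lower block, `d = 2^t e`, `#W(Lc) = p^e` : independent of the frame), `At2.numK_lvl` (upper block).
-/

set_option autoImplicit false
set_option linter.unusedSectionVars false

noncomputable section

open AlgebraicCurve ModularCurve

namespace Fermat.Agent.ML.Lift

open Fermat.Agent.RIB Fermat.Agent.RIB.Rho Fermat.Agent.GAL Fermat.Agent.GAL.PC Fermat.Agent.ML
  Fermat.Agent.ML.TWFree Fermat.Agent.ML.ESide

local notation "Qbar" => AlgebraicClosure ℚ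
local notation "GQ" => (AlgebraicClosure ℚ ≃ₐ[ℚ] AlgebraicClosure ℚ)
local notation "M₂" => Matrix (Fin 2) (Fin 2)

section Arith

variable {W : WeierstrassCurve ℤ} {p : ℕ} [Fact p.Prime] {T : Finset ℕ}
  {b : Module.Basis (Fin 2) (ZMod p) (TorsW W p)} {L₀ : ℕ} [NeZero L₀] {eps : ℕ → ℤ} {eP : GQ → ℤ}

/-- a prime divisor of a cell level divides `L₀` or has been raised. -/
theorem stepNum_dvd_cases (X : LCtx W p T b L₀ eps eP) {P : Finset ℕ}
    (hP : P ⊆ Pfin W (rbarB b) L₀) {r : ℕ} (hr : r.Prime) (hd : r ∣ cellLevel L₀ P) :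
    r ∣ L₀ ∨ r ∈ P := by
  unfold cellLevel at hd
  rcases (Nat.Prime.dvd_mul hr).1 hd with h | h
  · exact Or.inl h
  · obtain ⟨q, hq, hrq⟩ := (Prime.dvd_finsetProd_iff hr.prime _).1 h
    have hqP := Finset.mem_of_mem_erase hq
    exact Or.inr ((Nat.prime_dvd_prime_iff_eq hr (X.prime_of_mem_Pfin (hP hqP))).1 hrq ▸ hqP)

/-- the primes of the upper level are in `T`. -/
theorem stepNum_mem_T (X : LCtx W p T b L₀ eps eP) {P : Finset ℕ}
    (hP : P ⊆ Pfin W (rbarB b) L₀) {q : ℕ} (hq : q ∈ Pfin W (rbarB b) L₀) {r : ℕ} (hr : r.Prime)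
    (hd : r ∣ cellLevel L₀ P * q * p) : r ∈ T := by
  have hbad : ∀ q' ∈ Pfin W (rbarB b) L₀, q' ∈ T := fun q' hq' =>
    X.hbadT q' (X.prime_of_mem_Pfin hq') (X.dvd_of_mem_Pfin hq')
  rcases (Nat.Prime.dvd_mul hr).1 hd with h | h
  · rcases (Nat.Prime.dvd_mul hr).1 h with h | h
    · rcases stepNum_dvd_cases X hP hr h with h | h
      · exact X.BP.levT r hr (h.mul_right p)
      · exact hbad r (hP h)
    · rw [(Nat.prime_dvd_prime_iff_eq hr (X.prime_of_mem_Pfin hq)).1 h]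
      exact hbad q hq
  · exact X.BP.levT r hr (h.mul_left L₀)

theorem stepNum_four_dvd (X : LCtx W p T b L₀ eps eP) (P : Finset ℕ) : 4 ∣ cellLevel L₀ P := by
  obtain ⟨M, hM, -, -⟩ := X.BP.shape
  exact (hM ▸ Dvd.intro_left M rfl : 4 ∣ L₀).mul_right _

end Arith

/-- **(NUM)**. -/
theorem stepNumStmt : StepNumStmt := by
  intro W p _ T b L₀ _ eps eP X t P q hP hq hqP hq2 hqp hpP
  have hqpr : q.Prime := X.prime_of_mem_Pfin hq
  have hne : cellLevel L₀ P ≠ 0 := by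
    unfold cellLevel
    refine mul_ne_zero (NeZero.ne L₀) (Finset.prod_ne_zero_iff.2 fun q' hq' => ?_)
    exact (X.prime_of_mem_Pfin (hP (Finset.mem_of_mem_erase hq'))).ne_zero
  have : NeZero (cellLevel L₀ P) := ⟨hne⟩
  obtain ⟨e, he⟩ := At2.exists_card_eq_pow
    (X := ↥(WS (cellLevel L₀ P) p (↑T : Set ℕ) W.apOfModel)) p
    (fun x => Subtype.ext x.2.2)
  refine ⟨2 ^ t * e, ?_⟩
  intro a m n K qv F ha Lc Lc' _ _ _ hLc hL
  subst hLc
  have h4 : 4 ∣ cellLevel L₀ P := stepNum_four_dvd X P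
  have hqL : ¬ q ∣ cellLevel L₀ P := fun hd => by
    rcases stepNum_dvd_cases X hP hqpr hd with h | h
    · exact X.not_dvd_of_mem_Pfin hq hq2 h
    · exact hqP h
  have TC' : MTW p T W.apOfModel Lc' t n qv :=
    F.tw Lc' (fun r hr hd => stepNum_mem_T X hP hq hr (hL ▸ hd)) (hL ▸ h4.mul_right q)
  have TC : MTW p T W.apOfModel (cellLevel L₀ P) t n qv :=
    TC'.of_dvd (hL ▸ Dvd.intro _ rfl) h4
  have hn := F.hn
  have h2a : 2 * a ≤ n + 1 := by omega
  have han : a ≤ n := by omega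
  obtain ⟨A, τ, hA, hτ, hcyc, hcycl, hC'⟩ := exists_isCube_cyc X.C TC'
  have hC : IsCube p (↑(cutS T qv) : Set ℕ) W.apOfModel (cellLevel L₀ P) qv τ :=
    isCube_of_tau_q X.C TC' h4 hqpr hL hqL A τ hA hτ fun i Q => (hcyc i Q).fixed
  obtain ⟨D, hD⟩ := At2.numK_lvl X.C TC'.toMTW0 hqpr hL hqL hA hτ hC' hC
  have h1 := At2.num_lvl X.C TC.toMTW0 hA hτ hC he rfl ha h2a
    (Ulow p (↑(cutS T qv) : Set ℕ) W.apOfModel qv (lvl (cellLevel L₀ P) (extP qv) t) a)
    (fun _ => Iff.rfl)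
  have h2 := hD _ _ rfl rfl (lvl_mul_q hL qv) a ha h2a
    (Uup p (↑(cutS T qv) : Set ℕ) W.apOfModel qv (lvl_mul_q hL qv) a) (fun _ => Iff.rfl)
  exact ⟨A, τ, D, hA, hτ,
    fun i => (hcycl i).mono (pow_dvd_pow p (le_nuP_succ_of_le TC' han i)), h1.1, h2.1, h2.2⟩

end Fermat.Agent.ML.Lift
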