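import Fermat.Agent.ML.Lift.Soft.Asm
import Fermat.Agent.ML.Lift.Soft.Num
import Fermat.Agent.ML.Lift.Soft.Atp

/-!
# ML / LIFT / Soft / Main : `StepSoftStmt` from (MID) alone
-/

set_option autoImplicit false

namespace Fermat.Agent.ML.Lift

open Fermat.Agent.ML

/-- `StepSoftStmt ⟸ LowerStmt + SoftMidStmt`. -/
theorem stepSoftStmt_of_mid (hLow : LowerStmt) (hMid : SoftMidStmt) : StepSoftStmt :=
  stepSoft_of stepNumStmt hMid (stepAtpStmt_of hLow)

end Fermat.Agent.ML.Lift
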