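import Fermat.Agent.ML.Lift.Soft.Mid2A
import Fermat.Agent.ML.Lift.Soft.MidLoc
import Fermat.Agent.ML.Lift.Inst.GenFrame
import Fermat.Agent.ML.Lift.Inst.MidTwo
import Fermat.Agent.ML.Hard.Mid.Old

/-!
# ML / LIFT / Soft / Mid2 : `SoftMidStmt ⟸ MidTwoStmt`   (second source)
-/

set_option autoImplicit false
set_option linter.unusedSectionVars false

noncomputable section

open AlgebraicCurve ModularCurve

namespace Fermat.Agent.ML.Lift

open Fermat.Agent.RIB Fermat.Agent.RIB.Rho Fermat.Agent.GAL Fermat.Agent.GAL.PC Fermat.Agent.ML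
  Fermat.Agent.ML.TWFree Fermat.Agent.ML.ESide Fermat.Agent.ML.Raise Fermat.Agent.ML.StepGen
  Fermat.Agent.ML.Rho Fermat.Agent.S56 Fermat.Agent.S56.Gen ExtCitation Fermat.Agent.ML.FinGen
open CFT (decomp)

local notation "Qbar" => AlgebraicClosure ℚ
local notation "GQ" => (AlgebraicClosure ℚ ≃ₐ[ℚ] AlgebraicClosure ℚ)
local notation "M₂" => Matrix (Fin 2) (Fin 2)

theorem mid2_pkg_mono {p : ℕ} {R : Type} [CommRing R] {X : Type*} [AddCommGroup X] [Module R X]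
    {π0 : R →+* ZMod p} {ρ : GQ →* M₂ R} {Gt : Submodule R X} {v : Nat.Primes} {u dl be : R}
    {N : ℤ} {f f' : ℕ} (h : LocPkg p π0 ρ Gt v u dl be N f) (hf : f ≤ f') :
    LocPkg p π0 ρ Gt v u dl be N f' :=
  ⟨h.pi0_u, h.strict, h.val, mid2_not_dvd_mono h.hN hf⟩

theorem mid2_fun {α β : Type*} [DecidableEq α] (a b : α) (hab : b ≠ a) (x y : β) (g : α → β) :
    ∃ f : α → β, f a = x ∧ f b = y ∧ ∀ v, v ≠ a → v ≠ b → f v = g v :=
  ⟨fun v => if v = a then x else if v = b then y else g v, if_pos rfl, by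
    show (if b = a then x else if b = b then y else g b) = y
    rw [if_neg hab, if_pos rfl], fun v h1 h2 => by
    show (if v = a then x else if v = b then y else g v) = g v
    rw [if_neg h1, if_neg h2]⟩

set_option maxHeartbeats 3200000 in
/-- `SoftMidStmt ⟸ MidTwoStmt`. -/
theorem softMid2_of (h2 : MidTwoStmt) : SoftMidStmt := by
  classical
  intro W p _ T b L₀ _ eps eP X t P q hP hq hqP hq2 hqp hqns hpP h2P hPns
  obtain ⟨N2, hN2, h2⟩ := h2 W p T b L₀ eps eP X P hP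
  obtain ⟨qP, rfl⟩ : ∃ v : Nat.Primes, (v : ℕ) = q := ⟨⟨q, X.prime_of_mem_Pfin hq⟩, rfl⟩
  obtain ⟨F1, hF1⟩ : ∃ F1 : ℕ, F1 = 2 * ((qP : ℕ) + 1) + N2.natAbs + p := ⟨_, rfl⟩
  refine ⟨F1 + (P.card + 2) * F1, ?_⟩
  intro a m n K qv hF ha Lc Lc' _ _ _ hLc hL G hG hG0 B C hEK R _ _ _ _ _ πE ρ Φ H
  have hp : p.Prime := Fact.out
  have hqpr : (qP : ℕ).Prime := qP.2
  have hGV := Frame.hGV X hP hq hqP hq2 hF hLc hL hG (V := thTors p (↑(cutS T qv) : Set ℕ)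
    W.apOfModel (lvl Lc' (extP qv) t) (K + 1)) (fun _ => Iff.rfl)
  obtain ⟨Y, hY⟩ := StepGen.exists_Gt hL hG H hGV
  have hYG := Frame.hYG hL hG Y hY
  have hnotT := (Frame.mtw' X hP hq hqP hq2 hF hLc hL).notT
  have huAg : ∀ (g : GQ) v, upE (lvl_mul_q hL qv) 0 (g • v) = g • upE (lvl_mul_q hL qv) 0 v :=
    fun g v => upE_smul _ 0 g v
  have hYS : ∀ y ∈ Y, ∃ v ∈ G, upE (lvl_mul_q hL qv) 0 v = (y : JZero (lvl Lc' (extP qv) t)) :=
    fun y hy => (hY y).1 hy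
  have hYS' : ∀ y ∈ Y, (y : JZero (lvl Lc' (extP qv) t)) ∈
      upE (lvl_mul_q hL qv) 0 '' (G : Set (JZero (lvl Lc (extP qv) t))) := fun y hy => by
    obtain ⟨w, hw, e⟩ := hYS y hy
    exact ⟨w, hw, e⟩
  have hP' : insert (qP : ℕ) P ⊆ Pfin W (rbarB b) L₀ := Finset.insert_subset hq hP
  have hLc' : Lc' = cellLevel L₀ (insert (qP : ℕ) P) := by
    rw [outAuto_cellLevel L₀ hqP hq2, hL, hLc]
  have hneP : ∀ v ∈ P, v ≠ p := fun v hv e => hpP (e ▸ hv)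
  -- the primes raised before
  have hold : ∀ v : Nat.Primes, (v : ℕ) ∈ P → (v : ℕ) ≠ 2 → ∃ bv : R, pi0 πE bv = 0 ∧
      (∀ I : Ideal R, bv ∈ I → ∃ M : M₂ R, IsUnit (M.map (pi0 πE)) ∧
        ∀ s ∈ decomp v, ConjConst ℤ (Y.annihilator ⊔ I) M (ρ s)) ∧
      Nat.card ↥(B1loc (adRep (mapK (kM p) (rbarB b))) v) * Nat.card (kM p) ^ 1 ≤
        Nat.card (kM p) ^ 3 ∧
      ∀ β' : R, bv ∣ β' → ∀ G' : Set (JZero (lvl Lc' (extP qv) t)),
        (∀ y ∈ G', ∃ x₁ : ↥(thTors p (↑(cutS T qv) : Set ℕ) W.apOfModel (lvl Lc' (extP qv) t)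
          (K + 1)), ((β' • x₁ : ↥(thTors p (↑(cutS T qv) : Set ℕ) W.apOfModel
            (lvl Lc' (extP qv) t) (K + 1))) : JZero (lvl Lc' (extP qv) t)) = y) →
        LocSt (v : ℕ) (eps (v : ℕ)) G' ∧ LocUnip (v : ℕ) G' := fun v hvP hv2 =>
    Hard.old_soft X C H hG (upE (lvl_mul_q hL qv) 0) huAg Y hYG hYS v hvP (hP hvP) (hneP _ hvP)
      (hPns _ hvP hv2) (Hard.old_level X hP' hnotT (Finset.mem_insert_of_mem hvP) hv2 hLc').2
  choose! bo hbo using hold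
  -- the new prime
  have hA := CFT.LS.liesOverPrime_primeLocalPlace qP
  obtain ⟨φ, hφ⟩ := S54.exists_isFrobeniusAt_of_liesOverPrime qP.2 _ hA
  have hram := X.not_ram_of_mem_Pfin hq hqp
  have hΔ := X.dvd_of_mem_Pfin hq
  have hε' : eps (qP : ℕ) = 1 ∨ eps (qP : ℕ) = -1 := (X.sgn _ hqpr hqp hΔ).1
  have hε : eps (qP : ℕ) * eps (qP : ℕ) = 1 := by
    rcases hε' with e | e <;> rw [e] <;> norm_num
  obtain ⟨bq, S⟩ := exists_softAt_top X.C C H qP hqp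
    (Hard.old_level X hP' hnotT (Finset.mem_insert_self _ P) hq2 hLc').2 hram hε
    (locSt_EM B X.sgn hqpr hqp hΔ) hφ (hqns _ hA φ hφ)
  have hqN := Frame.hqN X hP hq hqP hq2 hF hLc
  have hqNp : ¬ (qP : ℕ) ∣ lvl Lc (extP qv) t * p := fun hd => by
    rcases (Nat.Prime.dvd_mul hqpr).1 hd with h | h
    · exact hqN h
    · exact hqp ((Nat.prime_dvd_prime_iff_eq hqpr hp).1 h)
  have hurq : LocUr (qP : ℕ) (upE (lvl_mul_q hL qv) 0 '' (G : Set (JZero (lvl Lc (extP qv) t)))) :=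
    LocUr.image (G := (G : Set (JZero (lvl Lc (extP qv) t)))) (fun A hA τ hτ x hx =>
      (SS.es_all (lvl Lc (extP qv) t) p).1 _ hqpr hqNp A hA τ hτ x ⟨a, (hG.box x hx).1⟩) _ huAg
  have hNq0 : 2 * eps (qP : ℕ) * (((qP : ℕ) : ℤ) + 1) ≠ 0 := by
    rcases hε' with e | e <;> rw [e] <;> positivity
  have hNqF : (2 * eps (qP : ℕ) * (((qP : ℕ) : ℤ) + 1)).natAbs ≤ F1 := by
    rcases hε' with e | e <;> rw [e] <;> omega
  have pkgq := locPkg_new H S Y hYG hYS' hurq (f := F1) (mid2_not_dvd hp.one_lt hNq0 hNqF)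
  have hwq := X.C.weight_one qP (fun σ hσ => unram_of_not_ram hram _ hA σ hσ) hφ (hqns _ hA φ hφ)
  -- the prime 2
  obtain ⟨u2, dl2, β2, hu2, out2, in2⟩ := h2 K (lvl Lc' (extP qv) t) _ B C R πE ρ Φ H
  have in2 := in2 Y hYG _ hYS'
    (fun h1 h3 => (hG.ur 2 Nat.prime_two X.C.two_mem h3 (Ne.symm X.C.hp2) h1).image _ huAg)
    (fun h => by
      rcases h with h | h
      · exact (hG.unip 2 Nat.prime_two (Ne.symm X.C.hp2) h).image _ huAg
      · exact (hG.st 2 h (Ne.symm X.C.hp2)).2.image _ huAg)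
    (fun h => (hG.st 2 h (Ne.symm X.C.hp2)).1.image _ huAg)
  -- the variables
  obtain ⟨cq, hcq⟩ : ∃ c : R, c = (ρ φ).trace - (eps (qP : ℕ) : R) * (((qP : ℕ) : R) + 1) :=
    ⟨_, rfl⟩
  obtain ⟨cq', hcq'⟩ : ∃ c : R, c = (ρ φ).trace + (eps (qP : ℕ) : R) * (((qP : ℕ) : R) + 1) :=
    ⟨_, rfl⟩
  rw [← hcq, ← hcq'] at pkgq
  obtain ⟨Nq, hNq⟩ : ∃ c : ℤ, c = 2 * eps (qP : ℕ) * (((qP : ℕ) : ℤ) + 1) := ⟨_, rfl⟩
  rw [← hNq] at pkgq
  have hq2' : qP ≠ twoP := fun e => hq2 (congrArg Subtype.val e)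
  obtain ⟨uf, huf2, hufq, hufo⟩ : ∃ uf : Nat.Primes → R, uf twoP = u2 ∧ uf qP = cq ∧
      ∀ v, v ≠ twoP → v ≠ qP → uf v = bo v :=
    mid2_fun twoP qP hq2' u2 cq bo
  obtain ⟨df, hdf2, hdfq, hdfo⟩ : ∃ uf : Nat.Primes → R, uf twoP = dl2 ∧ uf qP = 0 ∧
      ∀ v, v ≠ twoP → v ≠ qP → uf v = 1 :=
    mid2_fun twoP qP hq2' dl2 0 fun _ => 1
  obtain ⟨bf, hbf2, hbfq, hbfo⟩ : ∃ uf : Nat.Primes → R, uf twoP = β2 ∧ uf qP = cq' ∧
      ∀ v, v ≠ twoP → v ≠ qP → uf v = bo v :=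
    mid2_fun twoP qP hq2' β2 cq' bo
  obtain ⟨Nf, hNf2, hNfq, hNfo⟩ : ∃ uf : Nat.Primes → ℤ, uf twoP = N2 ∧ uf qP = Nq ∧
      ∀ v, v ≠ twoP → v ≠ qP → uf v = (p : ℤ) :=
    mid2_fun twoP qP hq2' N2 Nq fun _ => (p : ℤ)
  obtain ⟨Ro, hRo⟩ : ∃ Ro : Finset Nat.Primes, ∀ v, v ∈ Ro ↔
      (v : ℕ) ∈ insert (qP : ℕ) P ∧ (v : ℕ) ≠ 2 :=
    ⟨(toP T).filter fun v => (v : ℕ) ∈ insert (qP : ℕ) P ∧ (v : ℕ) ≠ 2, fun v => by
      rw [Finset.mem_filter, mem_toP']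
      exact ⟨fun h => h.2, fun h => ⟨X.hbadT _ v.2 (X.dvd_of_mem_Pfin (hP' h.1)), h⟩⟩⟩
  have hRoc : Ro.card ≤ P.card + 1 := by
    refine le_trans (Finset.card_le_card_of_injOn (fun v : Nat.Primes => (v : ℕ))
      (fun v hv => ((hRo v).1 hv).1) (fun v _ w _ e => Subtype.ext e)) (Finset.card_insert_le _ _)
  have hF1p : 1 ≤ F1 := by have := hp.one_lt; omega
  -- the packages at the odd primes
  have pkgo : ∀ v ∈ Ro, LocPkg p (pi0 πE) ρ Y v (uf v) (df v) (bf v) (Nf v) F1 ∧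
      Nat.card ↥(B1loc (adRep (mapK (kM p) (rbarB b))) v) * Nat.card (kM p) ^ 1 ≤
        Nat.card (kM p) ^ 3 := by
    intro v hv
    obtain ⟨hv1, hv2⟩ := (hRo v).1 hv
    have hv2' : v ≠ twoP := fun e => hv2 (congrArg Subtype.val e)
    by_cases hvq : v = qP
    · subst hvq
      rw [hufq, hdfq, hbfq, hNfq]
      exact ⟨pkgq, hwq⟩
    · have hvP : (v : ℕ) ∈ P := by
        rcases Finset.mem_insert.1 hv1 with h | h
        · exact absurd (Subtype.ext h) hvq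
        · exact h
      obtain ⟨h1, h3, h4, -⟩ := hbo v hvP hv2
      rw [hufo v hv2' hvq, hdfo v hv2' hvq, hbfo v hv2' hvq, hNfo v hv2' hvq]
      refine ⟨⟨h1, h3, fun x _ hx => ?_, ?_⟩, h4⟩
      · rw [mul_one, sub_smul, sub_eq_zero] at hx
        rw [hx, Nat.cast_smul_eq_nsmul, natCast_zsmul]
      · exact mid2_not_dvd hp.one_lt (by exact_mod_cast hp.ne_zero) (by
          rw [Int.natAbs_natCast]; omega)
  have hqRo : qP ∈ Ro := (hRo qP).2 ⟨Finset.mem_insert_self _ _, hq2⟩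
  have hYmem : ∀ x : ↥(thTors p (↑(cutS T qv) : Set ℕ) W.apOfModel (lvl Lc' (extP qv) t) (K + 1)),
      (x : JZero (lvl Lc' (extP qv) t)) ∈ G.map (upE (lvl_mul_q hL qv) 0) → x ∈ Y := fun x hx => by
    obtain ⟨v, hv, e⟩ := hx
    exact (hY x).2 ⟨v, hv, e⟩
  -- the common part of the two cases
  have key : ∀ (Rs : Finset Nat.Primes) (be0 : R) (N0 : ℤ), Ro ⊆ Rs → Rs ⊆ insert twoP Ro →
      (twoP ∈ Rs → LocPkg p (pi0 πE) ρ Y twoP u2 dl2 β2 N2 F1 ∧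
        Nat.card ↥(B1loc (adRep (mapK (kM p) (rbarB b))) twoP) * Nat.card (kM p) ^ 1 ≤
          Nat.card (kM p) ^ 3) →
      (twoP ∉ Rs → 2 ∉ P) → (∀ x ∈ Y, be0 • x = N0 • x) → ¬ (p : ℤ) ^ (F1 + 1) ∣ N0 →
      β2 ∣ be0 * ∏ v ∈ Rs, bf v →
      ∃ (u δ : Fin t → R) (β' : R) (Nn : ℤ),
        MidOut p T (rbarB b) eps P (qP : ℕ) (F1 + (P.card + 2) * F1) t
          (thTors p (↑(cutS T qv) : Set ℕ) W.apOfModel (lvl Lc' (extP qv) t) (K + 1))
          (G.map (upE (lvl_mul_q hL qv) 0))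
          (Uup p (↑(cutS T qv) : Set ℕ) W.apOfModel qv (lvl_mul_q hL qv) a)
          (pi0 πE) u δ β' Nn := by
    intro Rs be0 N0 hRo1 hRs1 h2Rs h2n hval0 hN0 hβ2
    have pkg : ∀ v ∈ Rs, LocPkg p (pi0 πE) ρ Y v (uf v) (df v) (bf v) (Nf v) F1 ∧
        Nat.card ↥(B1loc (adRep (mapK (kM p) (rbarB b))) v) * Nat.card (kM p) ^ 1 ≤
          Nat.card (kM p) ^ 3 := by
      intro v hv
      by_cases hv2 : v = twoP
      · subst hv2
        rw [huf2, hdf2, hbf2, hNf2]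
        exact h2Rs hv
      · rcases Finset.mem_insert.1 (hRs1 hv) with h | h
        · exact absurd h hv2
        · exact pkgo v h
    have hRsT : Rs ⊆ toP T := by
      intro v hv
      rw [mem_toP']
      rcases Finset.mem_insert.1 (hRs1 hv) with h | h
      · rw [h]
        exact X.C.two_mem
      · exact X.hbadT _ v.2 (X.dvd_of_mem_Pfin (hP' ((hRo v).1 h).1))
    have hpR : pPrime p ∉ Rs := by
      intro hv
      rcases Finset.mem_insert.1 (hRs1 hv) with h | h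
      · exact X.C.hp2 (congrArg Subtype.val h)
      · rcases Finset.mem_insert.1 ((hRo _).1 h).1 with h' | h'
        · exact hqp h'.symm
        · exact hpP h'
    have hgh : ∀ I : Ideal R, (∀ a ∈ I, pi0 πE a = 0) →
        (∀ v ∈ Rs, ∃ M : M₂ R, IsUnit (M.map (pi0 πE)) ∧
          ∀ σ ∈ decomp v, ConjConst ℤ (Y.annihilator ⊔ I) M (ρ σ)) →
        GenHypMZ p (rbarB b) (toP T) (Finset.univ.image qv) Rs (pi0 πE) ρ (Y.annihilator ⊔ I) :=
      fun I hI hstrict => StepGen.genHyp_frame X hP hq hqP hq2 hF hLc hL hG C H Y hY hpP hG0 hGV Rs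
        (fun v _ hvR _ hvP => by
          by_cases hv2 : (v : ℕ) = 2
          · have e : v = twoP := Subtype.ext hv2
            rw [e] at hvR
            exact absurd (hv2 ▸ hvP) (h2n hvR)
          · exact absurd (hRo1 ((hRo v).2 ⟨Finset.mem_insert_of_mem hvP, hv2⟩)) hvR) I hI hstrict
    obtain ⟨κ, _, uu, dd, hκ, huu, hgen, hk, hN, hval⟩ := mid_abs X.C hF.gen hRsT hpR
      (fun v hv => (pkg v hv).2) Y uf df bf Nf (fun _ => F1) (fun v hv => (pkg v hv).1) be0 N0 F1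
      hval0 hN0 hgh (StepGen.isNilpotent_ker H)
    have hcard : Rs.card ≤ P.card + 2 :=
      (Finset.card_le_card hRs1).trans ((Finset.card_insert_le _ _).trans (by omega))
    have hdv : ∀ v ∈ Rs, bf v ∣ be0 * ∏ v ∈ Rs, bf v := fun v hv =>
      Dvd.dvd.mul_left (Finset.dvd_prod_of_mem bf hv) be0
    refine mid2_finish Y hYmem uu dd hκ huu hgen (be0 * ∏ v ∈ Rs, bf v) (N0 * ∏ v ∈ Rs, Nf v)
      (mid2_not_dvd_mono hN ?_) hval ?_ ?_
    · rw [Finset.sum_const, smul_eq_mul]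
      exact Nat.add_le_add_left (Nat.mul_le_mul_right _ hcard) _
    · intro x _ hx
      obtain ⟨k, hk1, hk2⟩ := hk qP (hRo1 hqRo)
      have h1 := hx k
      rw [hk1, hk2, hufq, hdfq, mul_zero, sub_zero, hcq] at h1
      exact ⟨_, φ, hA, hφ, mid2_frob C H hqpr hqp hA hφ _ x h1⟩
    · intro G' _ hout
      have hout' : ∀ x ∈ (G' : Set (JZero (lvl Lc' (extP qv) t))),
          ∃ x₁ : ↥(thTors p (↑(cutS T qv) : Set ℕ) W.apOfModel (lvl Lc' (extP qv) t) (K + 1)),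
            (((be0 * ∏ v ∈ Rs, bf v) • x₁ : ↥(thTors p (↑(cutS T qv) : Set ℕ) W.apOfModel
              (lvl Lc' (extP qv) t) (K + 1))) : JZero (lvl Lc' (extP qv) t)) = x := fun x hx => by
        obtain ⟨x₁, -, e⟩ := hout x hx
        exact ⟨x₁, e⟩
      obtain ⟨o1, o2, o3⟩ := out2 _ hβ2 (G' : Set (JZero (lvl Lc' (extP qv) t))) hout'
      refine X.midOut_out' hP hq hqP hq2 hLc hL hnotT G' hout ?_ (fun h1 h3 => o3 h3 h1)
        (fun h => o2 h.symm)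
      intro q' hq' hq'p
      by_cases h2 : q' = 2
      · subst h2
        rcases Finset.mem_insert.1 hq' with h | h
        · exact absurd h.symm hq2
        · exact o1 h
      rcases Finset.mem_insert.1 hq' with h | h
      · subst h
        have hd := hdv qP (hRo1 hqRo)
        rw [hbfq, hcq'] at hd
        exact (mid_out_new H S hd
          (U := (Uup p (↑(cutS T qv) : Set ℕ) W.apOfModel qv (lvl_mul_q hL qv) a :
            Set (JZero (lvl Lc' (extP qv) t))))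
          (fun s x hx => Uup_gal (lvl_mul_q hL qv) a s x hx)
          (mid_rel_Uup hqpr hp hqp hqN (lvl_mul_q hL qv) a hA hφ) hout).1
      · have hq'pr := X.prime_of_mem_Pfin (hP h)
        have hv2' : (⟨q', hq'pr⟩ : Nat.Primes) ≠ twoP := fun e => h2 (congrArg Subtype.val e)
        have hvq : (⟨q', hq'pr⟩ : Nat.Primes) ≠ qP := fun e => hqP (by
          have := congrArg Subtype.val e
          exact this ▸ h)
        have hd := hdv ⟨q', hq'pr⟩ (hRo1 ((hRo _).2 ⟨hq', h2⟩))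
        rw [hbfo _ hv2' hvq] at hd
        exact ((hbo ⟨q', hq'pr⟩ h h2).2.2.2 _ hd _ hout').1
  have hN2F : ¬ (p : ℤ) ^ (F1 + 1) ∣ N2 := mid2_not_dvd hp.one_lt hN2 (by omega)
  rcases in2 with ⟨h2nP, hval2⟩ | ⟨hw2, hstr2, hval2⟩
  · exact key Ro β2 N2 subset_rfl (Finset.subset_insert _ _)
      (fun h => absurd rfl ((hRo twoP).1 h).2) (fun _ => h2nP) hval2 hN2F (Dvd.intro _ rfl)
  · refine key (insert twoP Ro) 1 1 (Finset.subset_insert _ _) subset_rfl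
      (fun _ => ⟨⟨hu2, hstr2, hval2, hN2F⟩, hw2⟩)
      (fun h => absurd (Finset.mem_insert_self _ _) h) (fun x _ => by rw [one_smul, one_smul])
      (mid2_not_dvd hp.one_lt one_ne_zero (by simpa using hF1p)) ?_
    rw [one_mul, ← hbf2]
    exact Finset.dvd_prod_of_mem bf (Finset.mem_insert_self _ _)

end Fermat.Agent.ML.Lift
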