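import Fermat.Agent.ML.Lift.Soft.OutAuto
import Fermat.Agent.ML.Lift.Inst.MidAbs
import Fermat.Agent.ML.Raise.SoftTop
import Fermat.Agent.ML.At2.Cell2Pkg

/-!
# ML / LIFT / Soft / Mid2A : auxiliary lemmas for the middle block of the soft step   (second source)

* `mid2_not_dvd` : `N ≠ 0`, `|N| ≤ F` ⟹ `p^(F+1) ∤ N`;
* `mid2_rel` : `ML.rel_last` through `dnE`;   `mid2_frob` : `c_q x = 0` ⟹ the Frobenius relation;
* `mid2_locUnip_subVJ`, `mid2_out_ur / unip / st` : transfers between `V = X × Λ²` and `J₀(L)`;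
* `mid2_finish` : from an index type `κ` with `#κ = t` to `Fin t`, the structure `MidOut`.
-/

set_option autoImplicit false
set_option linter.unusedSectionVars false

noncomputable section

open AlgebraicCurve ModularCurve

namespace Fermat.Agent.ML.Lift

open Fermat.Agent.RIB Fermat.Agent.RIB.Rho Fermat.Agent.GAL Fermat.Agent.GAL.PC Fermat.Agent.ML
  Fermat.Agent.ML.TWFree Fermat.Agent.ML.ESide Fermat.Agent.ML.Raise Fermat.Agent.ML.StepGen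
  Fermat.Agent.ML.Rho

local notation "Qbar" => AlgebraicClosure ℚ
local notation "GQ" => (AlgebraicClosure ℚ ≃ₐ[ℚ] AlgebraicClosure ℚ)
local notation "M₂" => Matrix (Fin 2) (Fin 2)

theorem mid2_not_dvd {p : ℕ} (hp : 1 < p) {N : ℤ} (hN : N ≠ 0) {F : ℕ} (hF : N.natAbs ≤ F) :
    ¬ (p : ℤ) ^ (F + 1) ∣ N := by
  intro hd
  have h1 : p ^ (F + 1) ∣ N.natAbs := Int.natCast_dvd.1 (by exact_mod_cast hd)
  have h2 := Nat.le_of_dvd (Int.natAbs_pos.2 hN) h1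
  have h3 : F + 1 < p ^ (F + 1) := Nat.lt_pow_self hp
  omega

theorem mid2_not_dvd_mono {p : ℕ} {N : ℤ} {f f' : ℕ} (h : ¬ (p : ℤ) ^ (f + 1) ∣ N) (hf : f ≤ f') :
    ¬ (p : ℤ) ^ (f' + 1) ∣ N := fun hd =>
  h (Dvd.dvd.trans (pow_dvd_pow _ (Nat.succ_le_succ hf)) hd)

/-- `ML.rel_last` through `dnE`. -/
theorem mid2_rel {N Nq q p : ℕ} [NeZero N] [NeZero Nq] [NeZero q] (h : Nq = N * q) (hq : q.Prime)
    (hp : p.Prime) (hqp : q ≠ p) (hqN : ¬ q ∣ N) {A : ValuationSubring Qbar}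
    (hA : A.LiesOverPrime q) {σ : GQ} (hσ : A.IsFrobeniusAt σ q) (y : JZero Nq)
    (hy : ∃ n : ℕ, p ^ n • y = 0) (hn : ∀ c, dnE h c y = 0) :
    trOp q σ (trOp q σ y) = (q + 1) ^ 2 • y := by
  subst h
  exact rel_last N q p hq hp hqp hqN A hA σ hσ y hy (hn 0) (hn 1)

section Top

variable {W : WeierstrassCurve ℤ} {p : ℕ} [Fact p.Prime]
  {b : Module.Basis (Fin 2) (ZMod p) (TorsW W p)} {K : ℕ}
  {B : Module.Basis (Fin 2) (ZMod (p ^ (K + 1))) (TorsW W (p ^ (K + 1)))} {N : ℕ} [NeZero N]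
  {X : AddSubgroup (JZero N)} {R : Type} [CommRing R] [Algebra (ZMod (p ^ (K + 1))) R]
  [Module R ↥X] {πE : R →ₐ[ZMod (p ^ (K + 1))] ZMod (p ^ (K + 1))} {ρ : GQ →* M₂ R}
  {Φ : M₂ R →ₐ[R] Module.End R ↥X}

/-- `c_q x = 0` ⟹ the Frobenius relation. -/
theorem mid2_frob (C : TopCtx W p b K B N X)
    (H : Fermat.Agent.ML.Rho.IsRhoK N (p ^ (K + 1)) X (rEB B) πE ρ Φ) {q : ℕ} (hq : q.Prime)
    (hqp : q ≠ p) {A : ValuationSubring Qbar} (hA : A.LiesOverPrime q) {φ : GQ}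
    (hφ : A.IsFrobeniusAt φ q) (ε : ℤ) (x : ↥X)
    (hx : ((ρ φ).trace - (ε : R) * ((q : R) + 1)) • x = 0) :
    φ • (x : JZero N) + q • φ⁻¹ • (x : JZero N) = (ε * ((q : ℤ) + 1)) • (x : JZero N) := by
  have h1 := C.trace_smul_coe H φ x
  have hχ : (chiM (p ^ (K + 1)) φ) = ((q : ℕ) : ZMod (p ^ (K + 1))) := by
    rw [chiM_apply]
    exact cycloChar_of_isFrobeniusAt' _ hq (C.coprime H hq hqp).symm hA hφ
  have hy : p ^ (K + 1) • (φ⁻¹ • (x : JZero N)) = 0 := by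
    have e : p ^ (K + 1) • φ⁻¹ • (x : JZero N) = φ⁻¹ • (p ^ (K + 1) • (x : JZero N)) :=
      (map_nsmul (DistribSMul.toAddMonoidHom (JZero N) φ⁻¹) _ _).symm
    rw [e, C.hXm _ x.2]
    exact map_zero (DistribSMul.toAddMonoidHom (JZero N) φ⁻¹)
  rw [val_nsmul_eq hχ hy] at h1
  rw [← h1]
  have h2 : (ρ φ).trace • x = (ε * ((q : ℤ) + 1)) • x := by
    rw [sub_smul, sub_eq_zero] at hx
    rw [hx, ← Int.cast_smul_eq_zsmul R]
    push_cast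
    rfl
  rw [h2]
  rfl

end Top

section VJ

variable {L m : ℕ} [NeZero L] [NeZero m] {R : Type} [CommRing R] [Algebra (ZMod m) R]
  {X : AddSubgroup (JZero L)} [Module R ↥X] {rE : GQ →* M₂ (ZMod m)}
  {πE : R →ₐ[ZMod m] ZMod m} {ρ : GQ →* M₂ R} {Φ : M₂ R →ₐ[R] Module.End R ↥X}

/-- `LocUnip` on `YS ⊇ Y` ⟹ `LocUnip` on `Y × 0 ≤ V`. -/
theorem mid2_locUnip_subVJ (H : Fermat.Agent.ML.Rho.IsRhoK L m X rE πE ρ Φ) (Y : Submodule R ↥X)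
    (hYG : ∀ (g : GQ), ∀ y ∈ Y, ∀ y' : ↥X, (y' : JZero L) = g • (y : JZero L) → y' ∈ Y)
    {YS : Set (JZero L)} (hYS : ∀ y ∈ Y, (y : JZero L) ∈ YS) {q : ℕ} (h : LocUnip q YS) :
    LocUnip q (subVJ rE πE ρ Φ Y : Set (VJ X rE πE ρ Φ)) :=
  locUnip_of_map (ofVJ X rE πE ρ Φ) (ofVJ_gal H) (subVJ rE πE ρ Φ Y).toAddSubgroup
    (smul_mem_subVJ H hYG) (ofVJ_inj_subVJ Y) (locUnip_mono h (image_subVJ_subset Y hYS))

/-- `G' ⊆ β X` is contained in the image of `β V`. -/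
theorem mid2_subset_range {β : R} {G' : Set (JZero L)}
    (hG' : ∀ x ∈ G', ∃ x₁ : ↥X, ((β • x₁ : ↥X) : JZero L) = x) :
    G' ⊆ ofVJ X rE πE ρ Φ '' (Set.range fun y : VJ X rE πE ρ Φ => β • y) := by
  intro x hx
  obtain ⟨x₁, h2⟩ := hG' x hx
  exact ⟨β • ((x₁ : XJ X ρ Φ), (0 : EMJ rE πE)), ⟨((x₁ : XJ X ρ Φ), (0 : EMJ rE πE)), rfl⟩, h2⟩

theorem mid2_out_ur (H : Fermat.Agent.ML.Rho.IsRhoK L m X rE πE ρ Φ) {β : R} {q : ℕ}
    (h : LocUr q (Set.range fun y : VJ X rE πE ρ Φ => β • y)) {G' : Set (JZero L)}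
    (hG' : ∀ x ∈ G', ∃ x₁ : ↥X, ((β • x₁ : ↥X) : JZero L) = x) : LocUr q G' :=
  locUr_mono (locUr_map (ofVJ X rE πE ρ Φ) (ofVJ_gal H) h) (mid2_subset_range hG')

theorem mid2_out_unip (H : Fermat.Agent.ML.Rho.IsRhoK L m X rE πE ρ Φ) {β : R} {q : ℕ}
    (h : LocUnip q (Set.range fun y : VJ X rE πE ρ Φ => β • y)) {G' : Set (JZero L)}
    (hG' : ∀ x ∈ G', ∃ x₁ : ↥X, ((β • x₁ : ↥X) : JZero L) = x) : LocUnip q G' :=
  locUnip_mono (locUnip_map (ofVJ X rE πE ρ Φ) (ofVJ_gal H) h) (mid2_subset_range hG')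

theorem mid2_out_st (H : Fermat.Agent.ML.Rho.IsRhoK L m X rE πE ρ Φ) {β : R} {q : ℕ} {ε : ℤ}
    (h : LocSt q ε (Set.range fun y : VJ X rE πE ρ Φ => β • y)) {G' : Set (JZero L)}
    (hG' : ∀ x ∈ G', ∃ x₁ : ↥X, ((β • x₁ : ↥X) : JZero L) = x) : LocSt q ε G' :=
  locSt_mono (locSt_map (ofVJ X rE πE ρ Φ) (ofVJ_gal H) h) (mid2_subset_range hG')

end VJ

/-- from an index type with `t` elements to `Fin t`. -/
theorem mid2_finish {p : ℕ} [Fact p.Prime] {T : Finset ℕ} {rbar0 : GQ →* M₂ (ZMod p)}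
    {eps : ℕ → ℤ} {P : Finset ℕ} {q f t : ℕ} {N' : ℕ} [NeZero N']
    {V G₁ U' : AddSubgroup (JZero N')} {R : Type} [CommRing R] [Module R ↥V]
    {π0 : R →+* ZMod p} (Y : Submodule R ↥V) (hY : ∀ x : ↥V, (x : JZero N') ∈ G₁ → x ∈ Y)
    {κ : Type} [Fintype κ] (uu dd : κ → R) (hκ : Fintype.card κ = t) (hu : ∀ k, π0 (uu k) = 0)
    (gen : RingHom.ker π0 ≤ Y.annihilator ⊔ Ideal.span (Set.range uu) ⊔ Ideal.span {(p : R)})
    (β' : R) (Nn : ℤ) (hN : ¬ (p : ℤ) ^ (f + 1) ∣ Nn)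
    (val : ∀ x ∈ Y, (∀ k, (uu k - (p : R) * dd k) • x = 0) → β' • x = Nn • x)
    (frob : ∀ x ∈ Y, (∀ k, (uu k - (p : R) * dd k) • x = 0) →
      ∃ (A : ValuationSubring Qbar) (σ : GQ), A.LiesOverPrime q ∧ A.IsFrobeniusAt σ q ∧
        σ • (x : JZero N') + q • σ⁻¹ • (x : JZero N') = (eps q * ((q : ℤ) + 1)) • (x : JZero N'))
    (out : ∀ G' : AddSubgroup (JZero N'), (∀ g : GQ, ∀ x ∈ G', g • x ∈ G') →
      (∀ x ∈ G', ∃ x₁ : ↥V, (x₁ : JZero N') ∈ U' ∧ ((β' • x₁ : ↥V) : JZero N') = x) →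
      (∀ q' ∈ insert q P, q' ≠ p →
        LocSt q' (eps q') (G' : Set (JZero N')) ∧ LocUnip q' (G' : Set (JZero N'))) ∧
      (∀ q' : ℕ, q'.Prime → q' ∈ T → q' ∉ insert q P → q' ≠ p → ¬ Ram rbar0 q' →
        LocUr q' (G' : Set (JZero N'))) ∧
      (∀ q' : ℕ, q'.Prime → q' ≠ p → Ram rbar0 q' → LocUnip q' (G' : Set (JZero N')))) :
    ∃ (u δ : Fin t → R) (β' : R) (Nn : ℤ), MidOut p T rbar0 eps P q f t V G₁ U' π0 u δ β' Nn := by
  let e : κ ≃ Fin t := Fintype.equivFinOfCardEq hκ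
  have hall : ∀ x : ↥V, (∀ k : Fin t, (uu (e.symm k) - (p : R) * dd (e.symm k)) • x = 0) →
      ∀ k : κ, (uu k - (p : R) * dd k) • x = 0 := fun x h k => by
    have := h (e k)
    rwa [e.symm_apply_apply] at this
  refine ⟨fun k => uu (e.symm k), fun k => dd (e.symm k), β', Nn,
    ⟨fun k => hu _, ?_, hN, fun x hx h => val x (hY x hx) (hall x h),
      fun x hx h => frob x (hY x hx) (hall x h), out⟩⟩
  have hr : Set.range (fun k : Fin t => uu (e.symm k)) = Set.range uu :=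
    e.symm.surjective.range_comp uu
  rw [hr]
  refine gen.trans (sup_le_sup_right (sup_le_sup_right ?_ _) _)
  intro s hs x hx
  exact Submodule.mem_annihilator.1 hs x (hY x hx)

end Fermat.Agent.ML.Lift
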