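/-
ML / LIFT / Soft / MidFin : from the output of `MidAbs.mid_abs` to `MidOut` (`ML/Lift/Soft/Spec.lean`).

Re-indexing `κ ≃ Fin t`, `annG V R G₁ = Ann Gt`, monotonicity in `f`.
-/
import Fermat.Agent.ML.Lift.Soft.Spec

set_option autoImplicit false
set_option linter.unusedSectionVars false

noncomputable section

open ModularCurve

namespace Fermat.Agent.ML.Raise

open Fermat.Agent.RIB Fermat.Agent.ML Fermat.Agent.ML.Lift

local notation "M₂" => Matrix (Fin 2) (Fin 2)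
local notation "Qbar" => AlgebraicClosure ℚ
local notation "GQ" => (AlgebraicClosure ℚ ≃ₐ[ℚ] AlgebraicClosure ℚ)

/-- `¬ p^(f'+1) ∣ N`, `f' ≤ f` `⟹ ¬ p^(f+1) ∣ N`. -/
theorem not_pow_dvd_mono {p : ℕ} {N : ℤ} {f' f : ℕ} (hf : f' ≤ f)
    (h : ¬ (p : ℤ) ^ (f' + 1) ∣ N) : ¬ (p : ℤ) ^ (f + 1) ∣ N :=
  fun h1 => h ((pow_dvd_pow _ (Nat.succ_le_succ hf)).trans h1)

/-- `annG V R G₁ = Ann Gt` for ANY submodule `Gt` with the points of `V ∩ G₁`. -/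
theorem annG_eq_of {J : Type*} [AddCommGroup J] {V G₁ : AddSubgroup J} {R : Type*} [CommRing R]
    [Module R ↥V] (Gt : Submodule R ↥V) (hGt : ∀ x : ↥V, x ∈ Gt ↔ (x : J) ∈ G₁) :
    annG V R G₁ = Gt.annihilator := by
  ext s
  rw [mem_annG, Submodule.mem_annihilator]
  exact ⟨fun h x hx => h x ((hGt x).1 hx), fun h x hx => h x ((hGt x).2 hx)⟩

/-- **`MidOut` from the output of `mid_abs`.** -/
theorem midOut_of_abs {p : ℕ} [Fact p.Prime] {T : Finset ℕ} {rbar0 : GQ →* M₂ (ZMod p)}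
    {eps : ℕ → ℤ} {P : Finset ℕ} {q f t : ℕ} {N' : ℕ} [NeZero N']
    {V G₁ U' : AddSubgroup (JZero N')} {R : Type} [CommRing R] [Module R ↥V]
    {π0 : R →+* ZMod p} (Gt : Submodule R ↥V)
    (hGt : ∀ x : ↥V, x ∈ Gt ↔ (x : JZero N') ∈ G₁)
    {κ : Type} [Fintype κ] (uu dd : κ → R) (hcard : Fintype.card κ = t)
    (hu : ∀ k, π0 (uu k) = 0)
    (hgen : RingHom.ker π0 ≤ Gt.annihilator ⊔ Ideal.span (Set.range uu) ⊔ Ideal.span {(p : R)})
    {β' : R} {Nn : ℤ} {f' : ℕ} (hf : f' ≤ f) (hN : ¬ (p : ℤ) ^ (f' + 1) ∣ Nn)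
    (hval : ∀ x ∈ Gt, (∀ k, (uu k - (p : R) * dd k) • x = 0) → β' • x = Nn • x)
    (hfrob : ∀ x ∈ Gt, (∀ k, (uu k - (p : R) * dd k) • x = 0) →
      ∃ (A : ValuationSubring Qbar) (σ : GQ), A.LiesOverPrime q ∧ A.IsFrobeniusAt σ q ∧
        σ • (x : JZero N') + q • σ⁻¹ • (x : JZero N') = (eps q * ((q : ℤ) + 1)) • (x : JZero N'))
    (hout : ∀ G' : AddSubgroup (JZero N'), (∀ g : GQ, ∀ x ∈ G', g • x ∈ G') →
      (∀ x ∈ G', ∃ x₁ : ↥V, (x₁ : JZero N') ∈ U' ∧ ((β' • x₁ : ↥V) : JZero N') = x) →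
      (∀ q' ∈ insert q P, q' ≠ p →
        LocSt q' (eps q') (G' : Set (JZero N')) ∧ LocUnip q' (G' : Set (JZero N'))) ∧
      (∀ q' : ℕ, q'.Prime → q' ∈ T → q' ∉ insert q P → q' ≠ p → ¬ Ram rbar0 q' →
        LocUr q' (G' : Set (JZero N'))) ∧
      (∀ q' : ℕ, q'.Prime → q' ≠ p → Ram rbar0 q' → LocUnip q' (G' : Set (JZero N')))) :
    ∃ (u δ : Fin t → R) (β' : R) (Nn : ℤ), MidOut p T rbar0 eps P q f t V G₁ U' π0 u δ β' Nn := by
  classical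
  let e : κ ≃ Fin t := Fintype.equivFinOfCardEq hcard
  have hall : ∀ x : ↥V, (∀ k : Fin t, (uu (e.symm k) - (p : R) * dd (e.symm k)) • x = 0) →
      ∀ k : κ, (uu k - (p : R) * dd k) • x = 0 := fun x h k => by
    have := h (e k)
    rwa [e.symm_apply_apply] at this
  refine ⟨fun k => uu (e.symm k), fun k => dd (e.symm k), β', Nn, ?_⟩
  refine ⟨fun k => hu _, ?_, not_pow_dvd_mono hf hN, ?_, ?_, hout⟩
  · rw [annG_eq_of Gt hGt]
    refine hgen.trans (sup_le_sup_right (sup_le_sup_left (Ideal.span_mono ?_) _) _)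
    rintro _ ⟨k, rfl⟩
    exact ⟨e k, by simp⟩
  · exact fun x hx h => hval x ((hGt x).2 hx) (hall x h)
  · exact fun x hx h => hfrob x ((hGt x).2 hx) (hall x h)

end Fermat.Agent.ML.Raise
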